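import Fermat.Agent.ClassIntegral.ValuesOne

/-!
# Integrality of combinations of values

If a combination of ray class characters modulo `𝔪` takes integral values at every ideal, then so
does the same combination of their values at `1 - k`, at every prime `ℓ ≥ 5` not dividing `N 𝔪` at
which the weight `k n` is admissible: its part of the parity of `k` is a mean over the classes of signs, and the transform of the
combined residue function is integral.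
-/

set_option autoImplicit false
set_option linter.unusedSectionVars false
set_option linter.style.haveILetI false

noncomputable section

open NumberField InfinitePlace IsDedekindDomain Module Filter Complex
open scoped Real nonZeroDivisors Classical Topology

namespace FA.ClassIntegral

open FA.HeckeFE FA.SiegelKlingen FA.HeckeCharFE FA.KlingenRay FA.KlingenIntegral
open FA.Hecke (IsRayChar IsNontrivial fPow)
open FA.KlingenZero (perSum1 HasLim normVal1 mem_mul_modUnit_iff mem_of_mem_mul_modUnit)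
open FA.PadicEulerFactor (pMul mem_pMul add_mem_lat)

variable {K : Type*} [Field K] [NumberField K] [IsTotallyReal K]
variable {𝔪 : Ideal (𝓞 K)} {S : Finset (InfinitePlace K)} {O : ValuationSubring ℂ} {ℓ : ℕ}

/-- The value vanishes off the parity. -/
theorem value_zero_of_not_parity {f : Ideal (𝓞 K) →* ℂ} (h : HasSigns 𝔪 f S) {k : ℕ} (hk : 1 ≤ k)
    (hn : k = 1 → 2 ≤ finrank ℚ K) (hpar : ¬HasParity S k) {Z : ℂ → ℂ} (hZ : IsLExt f Z) :
    Z (1 - (k : ℂ)) = 0 := by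
  rcases Nat.eq_or_lt_of_le hk with hk1 | hk'
  swap
  · exact (FA.KlingenTwo.value_eq_zero_iff h hk' hZ).2 hpar
  subst hk1
  have h1 := one_sub_ne_one (k := 1) le_rfl
  by_cases hnt : IsNontrivial f
  · obtain ⟨𝔣, g, hle, hgr, hp, hgn, hgf⟩ := exists_primitive h.ray
    obtain ⟨S', hg⟩ := exists_hasSigns hgr
    obtain rfl : S' = S := hasSigns_unique (signs_of_induced h.ray hg hle hgf) h
    rw [hZ.unique (isLExt_induced h.ray hg hp (hgn hnt) hgf) h1, FA.KlingenZero.one_sub_one,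
      primExt, FA.KlingenZero.invFac_zero fun e => hpar (Or.inr ⟨odd_one, e⟩), zero_mul, zero_mul]
  · obtain ⟨r, hr, hr0⟩ := FA.KlingenZero.exists_extension_zero (K := K)
    rw [hZ.unique (isLExt_trivial h.ray hnt) h1, FA.KlingenZero.one_sub_one, hr,
      hr0.2 (by have := hn rfl; omega), Rat.cast_zero, zero_mul]

/-- The weight of a class times the factor of the functional equation. -/
theorem term_eq (J : (FractionalIdeal (𝓞 K)⁰ K)ˣ) {N : ℕ} [NeZero N] (a : ℕ) {k : ℕ} (hk : 1 ≤ k) :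
    feFactor K ⊤ k * ((a : ℚ) * idealWeight J k N) =
      (((a : ℤ) * (2 * (-1) ^ k) ^ finrank ℚ K : ℤ) : ℚ) / ((2 * N ^ finrank ℚ K : ℕ) : ℚ) *
        dualScale J ^ (k - 1) := by
  have hA : FractionalIdeal.absNorm (J : FractionalIdeal (𝓞 K)⁰ K) ≠ 0 :=
    fun e => J.ne_zero (FractionalIdeal.absNorm_eq_zero_iff.1 e)
  obtain ⟨j, rfl⟩ : ∃ j, k = j + 1 := ⟨k - 1, by omega⟩
  rw [feFactor, idealWeight, absNorm_pMul, dualScale, Ideal.absNorm_top, mul_one,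
    FA.ArtinL.BiquadraticUnits.torsionOrder_eq_two, Nat.add_sub_cancel]
  push_cast
  rw [mul_pow _ ((j.factorial : ℕ) : ℚ)]
  field_simp
  ring

/-- **The weight of a class, the factor of the functional equation and a power of `N`.** -/
theorem val_term (hp : ℓ.Prime) (hℓ : O.valuation (ℓ : ℂ) < 1) (h5 : 5 ≤ ℓ)
    (J : (FractionalIdeal (𝓞 K)⁰ K)ˣ) {N : ℕ} [NeZero N] (hN : ¬ℓ ∣ N) (a : ℕ) {k : ℕ}
    (hk : 1 ≤ k) {x : ℂ}
    (hx : O.valuation (((dualScale J ^ (k - 1) : ℚ) : ℂ) * x) ≤ 1) :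
    O.valuation (((feFactor K ⊤ k : ℚ) : ℂ) *
      ((a : ℂ) * (((idealWeight J k N : ℚ) : ℂ) * x))) ≤ 1 := by
  obtain ⟨b, hb⟩ : ∃ b : ℕ, b = 2 * N ^ finrank ℚ K := ⟨_, rfl⟩
  obtain ⟨c, hc⟩ : ∃ c : ℤ, c = (a : ℤ) * (2 * (-1) ^ k) ^ finrank ℚ K := ⟨_, rfl⟩
  have hbv : O.valuation (b : ℂ) = 1 := val_natCast_eq_one hp hℓ fun hd => by
    rcases hp.dvd_mul.1 (hb ▸ hd) with h | h
    · have := Nat.le_of_dvd two_pos h
      omega
    · exact hN (hp.dvd_of_dvd_pow h)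
  have e : feFactor K ⊤ k * ((a : ℚ) * idealWeight J k N) =
      (c : ℚ) / (b : ℚ) * dualScale J ^ (k - 1) := by
    rw [hc, hb]
    exact term_eq J a hk
  have e' := congrArg (fun q : ℚ => (q : ℂ)) e
  simp only [Rat.cast_mul, Rat.cast_natCast, Rat.cast_div, Rat.cast_intCast] at e'
  rw [← mul_assoc (a : ℂ), ← mul_assoc, e', mul_assoc, map_mul, map_div₀, hbv, div_one]
  exact mul_le_one' (val_intCast_le _) hx

/-- The transform of an integral function is integral. -/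
theorem val_hatSum {J : (FractionalIdeal (𝓞 K)⁰ K)ˣ} {N : ℕ} [NeZero N] {Φ : K → ℂ}
    (hΦ : ∀ r ∈ (J : Set K), O.valuation (Φ r) ≤ 1) {ν : K}
    (hν : ν ∈ (dualLat J N : Set K)) : O.valuation (hatSum J N Φ ν) ≤ 1 :=
  Valuation.map_sum_le _ fun r hr => by
    rw [map_mul, val_trChar hν (residues_mem J N hr), mul_one]
    exact hΦ r (residues_mem J N hr)

variable {ι : Type*} {F : ι → Ideal (𝓞 K) →* ℂ} {P : Finset ι} {c : ι → ℂ} {k : ℕ}

/-- The combined residue function. -/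
def combRes (𝔪 : Ideal (𝓞 K)) (F : ι → Ideal (𝓞 K) →* ℂ) (S : Finset (InfinitePlace K))
    (P : Finset ι) (c : ι → ℂ) (J : (FractionalIdeal (𝓞 K)⁰ K)ˣ) (x : K) : ℂ :=
  ∑ i ∈ P, c i * res 𝔪 (F i) S J x

theorem isPer_combRes (hS : ∀ i ∈ P, HasSigns 𝔪 (F i) S) (hpar : HasParity S k) {N : ℕ} [NeZero N]
    (hN : (N : 𝓞 K) ∈ 𝔪) (J : (FractionalIdeal (𝓞 K)⁰ K)ˣ) :
    IsPer J N k (combRes 𝔪 F S P c J) where
  periodic d hd y hy := Finset.sum_congr rfl fun i hi => by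
    rw [(isPer_res (hS i hi) hpar hN J).periodic d hd y hy]
  unit m d hd := by
    rw [combRes, combRes, Finset.mul_sum]
    refine Finset.sum_congr rfl fun i hi => ?_
    rw [(isPer_res (hS i hi) hpar hN J).unit m d hd]
    ring

theorem val_combRes (h𝔪 : 𝔪 ≠ ⊥) (hS : ∀ i ∈ P, HasSigns 𝔪 (F i) S)
    (hval : ∀ A : Ideal (𝓞 K), A ≠ ⊥ → O.valuation (∑ i ∈ P, c i * F i A) ≤ 1)
    (J : (FractionalIdeal (𝓞 K)⁰ K)ˣ) {r : K} (hr : r ∈ (J : Set K)) :
    O.valuation (combRes 𝔪 F S P c J r) ≤ 1 := by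
  obtain ⟨x, hx, hx0, hrx⟩ : ∃ x, x ∈ (J : Set K) ∧ x ≠ 0 ∧
      r - x ∈ (J : FractionalIdeal (𝓞 K)⁰ K) * (𝔪 : FractionalIdeal (𝓞 K)⁰ K) := by
    by_cases h0 : r = 0
    · obtain ⟨y, hy, hy0⟩ : ∃ y, y ∈ ((J * modUnit 𝔪 : _) : Set K) ∧ y ≠ 0 := by
        by_contra hne
        push Not at hne
        exact (J * modUnit 𝔪).ne_zero (FractionalIdeal.eq_zero_iff.2 hne)
      refine ⟨y, mem_of_mem_mul_modUnit J h𝔪 hy, hy0, ?_⟩
      rw [h0, zero_sub]
      exact Submodule.neg_mem _ ((mem_mul_modUnit_iff J h𝔪 y).1 hy)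
    · exact ⟨r, hr, h0, by rw [sub_self]; exact Submodule.zero_mem _⟩
  obtain ⟨A, hA⟩ : ∃ A : Ideal (𝓞 K), (A : FractionalIdeal (𝓞 K)⁰ K) * J =
      FractionalIdeal.spanSingleton (𝓞 K)⁰ x := by
    obtain ⟨A, hA⟩ := FractionalIdeal.le_one_iff_exists_coeIdeal.1
      ((mul_le_mul' (FractionalIdeal.spanSingleton_le_iff_mem.2 hx) le_rfl).trans
        (mul_inv_cancel₀ J.ne_zero).le)
    exact ⟨A, by rw [hA, mul_assoc, inv_mul_cancel₀ J.ne_zero, mul_one]⟩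
  have hA0 : A ≠ ⊥ := fun e => by
    rw [e, FractionalIdeal.coeIdeal_bot, zero_mul, eq_comm,
      FractionalIdeal.spanSingleton_eq_zero_iff] at hA
    exact hx0 hA
  have e : combRes 𝔪 F S P c J r = (∑ i ∈ P, c i * F i A) * sgnS S x := by
    rw [combRes, Finset.sum_mul]
    refine Finset.sum_congr rfl fun i hi => ?_
    rw [(hS i hi).res_congr J hr hx hrx, (hS i hi).res_eq J hx hx0 hA, mul_assoc]
  rw [e, map_mul]
  exact mul_le_one' (hval A hA0) (val_sgnS _ _)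

theorem summable_bounded {Φ : K → ℂ} {J : (FractionalIdeal (𝓞 K)⁰ K)ˣ} {B : ℝ}
    (hB : ∀ d : Rep J, ‖Φ d.1‖ ≤ B) (hk : 2 ≤ k) :
    Summable fun d : Rep J => Φ d.1 * (((Algebra.norm ℚ d.1 : ℚ) : ℂ) ^ k)⁻¹ := by
  refine Summable.of_norm_bounded ((summable_constSum J hk).mul_left B) fun d => ?_
  rw [norm_mul, norm_inv, norm_pow, ← ofReal_ratCast, norm_real, Real.norm_eq_abs, Rat.cast_abs]
  exact mul_le_mul_of_nonneg_right (hB d) (inv_nonneg.2 (pow_nonneg (abs_nonneg _) _))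

theorem summable_bounded_one {Φ : K → ℂ} {J : (FractionalIdeal (𝓞 K)⁰ K)ˣ} {B : ℝ}
    (hB : ∀ d : Rep J, ‖Φ d.1‖ ≤ B) {x : ℝ} (hx : 0 < x) :
    Summable fun d : Rep J => Φ d.1 * ((Algebra.norm ℚ d.1 : ℚ) : ℂ)⁻¹ *
      FA.KlingenZero.rp (((|Algebra.norm ℚ d.1| : ℚ) : ℝ) ^ 2) x := by
  refine Summable.of_norm_bounded (((summable_ratio J (x := 1 + 2 * x) (by linarith)).mul_left
    (normR J ^ (-(1 + 2 * x)))).mul_left B) fun d => ?_
  have hd := Rep.ne_zero J d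
  have hr := zero_lt_one.trans_le (one_le_ratio_rep J d)
  obtain ⟨a, ha⟩ : ∃ a : ℝ, a = ((|Algebra.norm ℚ d.1| : ℚ) : ℝ) := ⟨_, rfl⟩
  have ha0 : 0 < a := ha ▸ Rat.cast_pos.2 (abs_pos.2 (Algebra.norm_ne_zero_iff.2 hd))
  have e2 : a⁻¹ * (a ^ 2) ^ (-x) = normR J ^ (-(1 + 2 * x)) * ratio J d.1 ^ (-(1 + 2 * x)) := by
    rw [← Real.mul_rpow (normR_pos J).le hr.le, normR_mul_ratio, ← ha, ← Real.rpow_natCast a 2,
      ← Real.rpow_mul ha0.le, ← Real.rpow_neg_one, ← Real.rpow_add ha0]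
    congr 1
    push_cast
    ring
  rw [← ha, FA.KlingenZero.rp_ofReal (pow_pos ha0 2), norm_mul, norm_mul, norm_inv,
    ← ofReal_ratCast, norm_real, norm_real, Real.norm_eq_abs, Real.norm_eq_abs,
    ← Rat.cast_abs, ← ha, abs_of_pos (Real.rpow_pos_of_pos (pow_pos ha0 2) _), mul_assoc, e2]
  exact mul_le_mul_of_nonneg_right (hB d) (mul_nonneg (Real.rpow_pos_of_pos (normR_pos J) _).le
    (Real.rpow_pos_of_pos hr _).le)

theorem hatSum_comb (J : (FractionalIdeal (𝓞 K)⁰ K)ˣ) (N : ℕ) [NeZero N] (ν : K) :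
    hatSum J N (combRes 𝔪 F S P c J) ν = ∑ i ∈ P, c i * hatSum J N (res 𝔪 (F i) S J) ν := by
  simp only [hatSum, combRes, Finset.sum_mul, Finset.mul_sum, mul_assoc]
  exact Finset.sum_comm

/-- The combination of one parity as constants of the transforms. -/
theorem comb_eq_classTerm (hS : ∀ i ∈ P, HasSigns 𝔪 (F i) S) (hk : 2 ≤ k) (hpar : HasParity S k)
    {N : ℕ} [NeZero N] (hNm : (N : 𝓞 K) ∈ 𝔪) {Z : ι → ℂ → ℂ} (hZ : ∀ i ∈ P, IsLExt (F i) (Z i)) :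
    ∑ i ∈ P, c i * Z i (1 - (k : ℂ)) =
      ∑ C : ClassGroup (𝓞 K), (feFactor K ⊤ k : ℂ) * ((N : ℂ) ^ (finrank ℚ K * (k - 1)) *
        classTerm C N 1 k (combRes 𝔪 F S P c (repIdeal K C))) := by
  have hlin : ∀ C : ClassGroup (𝓞 K), classTerm C N 1 k (combRes 𝔪 F S P c (repIdeal K C)) =
      ∑ i ∈ P, c i * classTerm C N 1 k (res 𝔪 (F i) S (repIdeal K C)) := fun C => by
    obtain ⟨B, hB⟩ : ∃ B : ι → ℝ, ∀ (i : ι) (d : Rep (dualLat (repIdeal K C) N)),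
        ‖hatSum (repIdeal K C) N (res 𝔪 (F i) S (repIdeal K C)) d.1‖ ≤ B i :=
      ⟨_, fun i d => norm_hatSum_le d.1⟩
    simp only [classTerm, normVal, perSum, hatSum_comb, Finset.sum_mul]
    rw [Summable.tsum_finsetSum fun i _ => ?_, Finset.mul_sum, Finset.mul_sum]
    · refine Finset.sum_congr rfl fun i _ => ?_
      rw [tsum_congr fun d => mul_assoc (c i) _ _, tsum_mul_left]
      ring
    · exact ((summable_bounded (hB i) hk).mul_left (c i)).congr fun d => (mul_assoc _ _ _).symm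
  rw [Finset.sum_congr rfl fun i hi => congrArg (c i * ·)
    (value_eq_classTerm (hS i hi) hk hpar hNm 1 (hZ i hi))]
  have e : ∑ i ∈ P, c i * ((feFactor K ⊤ k : ℂ) * ((N : ℂ) ^ (finrank ℚ K * (k - 1)) *
      ∑ C : ClassGroup (𝓞 K), classTerm C N 1 k (res 𝔪 (F i) S (repIdeal K C)))) =
      ∑ C : ClassGroup (𝓞 K), (feFactor K ⊤ k : ℂ) * ((N : ℂ) ^ (finrank ℚ K * (k - 1)) *
        classTerm C N 1 k (combRes 𝔪 F S P c (repIdeal K C))) := by
    simp only [hlin, Finset.mul_sum]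
    rw [Finset.sum_comm]
    refine Finset.sum_congr rfl fun C _ => Finset.sum_congr rfl fun i _ => ?_
    ring
  exact e

/-- **The combination of one parity, `k ≥ 2`.** -/
theorem val_parity (hp : ℓ.Prime) (hℓ : O.valuation (ℓ : ℂ) < 1) (h5 : 5 ≤ ℓ) (h𝔪 : 𝔪 ≠ ⊥)
    (hS : ∀ i ∈ P, HasSigns 𝔪 (F i) S) (hk : 2 ≤ k) (hk2 : k = 2 → 2 ≤ finrank ℚ K)
    (hpar : HasParity S k) (hkn : FA.WeightLevel.Admissible ℓ (k * finrank ℚ K)) (hN : ¬ℓ ∣ Ideal.absNorm 𝔪)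
    (hval : ∀ A : Ideal (𝓞 K), A ≠ ⊥ → O.valuation (∑ i ∈ P, c i * F i A) ≤ 1)
    {Z : ι → ℂ → ℂ} (hZ : ∀ i ∈ P, IsLExt (F i) (Z i)) :
    O.valuation (∑ i ∈ P, c i * Z i (1 - (k : ℂ))) ≤ 1 := by
  have : NeZero (Ideal.absNorm 𝔪) := ⟨fun e => h𝔪 (Ideal.absNorm_eq_zero_iff.1 e)⟩
  obtain ⟨N, hNdef⟩ : ∃ N, N = Ideal.absNorm 𝔪 := ⟨_, rfl⟩
  have : NeZero N := ⟨hNdef ▸ NeZero.ne _⟩
  have hNm : (N : 𝓞 K) ∈ 𝔪 := hNdef ▸ Ideal.absNorm_mem 𝔪
  rw [← hNdef] at hN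
  rw [comb_eq_classTerm hS hk hpar hNm hZ]
  refine Valuation.map_sum_le _ fun C _ => ?_
  have hN1 : ¬ℓ ∣ N * 1 := by rwa [mul_one]
  rw [classTerm, ← Nat.cast_pow]
  refine val_term hp hℓ h5 _ hN1 _ (by omega) ?_
  have hper := isPer_hatSum (isPer_combRes (c := c) hS hpar hNm (repIdeal K C)) 1
  have hb : ∀ d ∈ (dualLat (repIdeal K C) N : Set K),
      O.valuation (hatSum (repIdeal K C) N (combRes 𝔪 F S P c (repIdeal K C)) d) ≤ 1 := fun d hd =>
    val_hatSum (fun r hr => val_combRes h𝔪 hS hval _ hr) hd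
  rcases Nat.eq_or_lt_of_le hk with hk' | hk'
  · subst hk'
    exact val_normVal_two hp hℓ h5 hN1 hper (hk2 rfl) hkn hb
  · exact val_normVal hp hℓ h5 hN1 hper hk' hkn hb

/-- An element congruent to `1` modulo `M`, negative at one place: its norm is prime to `ℓ ∣ M`. -/
theorem exists_aux (hp : ℓ.Prime) (N : ℕ) [NeZero N] (w : InfinitePlace K) :
    ∃ y : 𝓞 K, y ≠ 0 ∧ y - 1 ∈ Ideal.span {(N : 𝓞 K)} ∧ rv w (y : K) < 0 ∧
      (∀ w' : InfinitePlace K, w' ≠ w → 0 < rv w' (y : K)) ∧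
      ¬ℓ ∣ Ideal.absNorm (Ideal.span {y}) := by
  obtain ⟨y, hy0, hy1, hyn, hyp⟩ := exists_negative_at
    (show Ideal.span {((N * ℓ : ℕ) : 𝓞 K)} ≠ ⊥ by simp [NeZero.ne N, hp.ne_zero])
    (IsTotallyReal.isReal w)
  rw [Ideal.mem_span_singleton] at hy1
  push_cast at hy1
  refine ⟨y, hy0, Ideal.mem_span_singleton.2 ((dvd_mul_right _ _).trans hy1), hyn,
    fun w' hw' => hyp w' (IsTotallyReal.isReal w') hw', fun hd => ?_⟩
  have h0 : Ideal.span {y} ≠ ⊥ := by simpa using hy0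
  have : Finite (𝓞 K ⧸ Ideal.span {y}) := Ideal.finiteQuotientOfFreeOfNeBot _ h0
  obtain ⟨x, hx⟩ := exists_prime_addOrderOf_dvd_card' (G := 𝓞 K ⧸ Ideal.span {y})
    (hp := ⟨hp⟩) ℓ (by rwa [Ideal.absNorm_apply, Submodule.cardQuot_apply] at hd)
  obtain ⟨b, rfl⟩ := Ideal.Quotient.mk_surjective x
  obtain ⟨z, hz⟩ := (dvd_mul_left _ _).trans hy1
  have hb : (ℓ : 𝓞 K) * b ∈ Ideal.span {y} := by
    rw [← Ideal.Quotient.eq_zero_iff_mem, map_mul, map_natCast, ← nsmul_eq_mul]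
    exact hx ▸ addOrderOf_nsmul_eq_zero _
  have hb' : b ∈ Ideal.span {y} := by
    rw [show b = y * b - z * ((ℓ : 𝓞 K) * b) by linear_combination (-b) * hz]
    exact Ideal.sub_mem _ (Ideal.mul_mem_right _ _ (Ideal.mem_span_singleton_self y))
      (Ideal.mul_mem_left _ _ hb)
  rw [← Ideal.Quotient.eq_zero_iff_mem] at hb'
  rw [hb', addOrderOf_zero] at hx
  exact hp.ne_one hx.symm

/-- **The combination of totally odd characters at `0`.** -/
theorem val_parity_one (hp : ℓ.Prime) (hℓ : O.valuation (ℓ : ℂ) < 1) (h5 : 5 ≤ ℓ) (h𝔪 : 𝔪 ≠ ⊥)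
    (hS : ∀ i ∈ P, HasSigns 𝔪 (F i) Finset.univ) (hkn : FA.WeightLevel.Admissible ℓ (finrank ℚ K))
    (hN : ¬ℓ ∣ Ideal.absNorm 𝔪)
    (hval : ∀ A : Ideal (𝓞 K), A ≠ ⊥ → O.valuation (∑ i ∈ P, c i * F i A) ≤ 1)
    {Z : ι → ℂ → ℂ} (hZ : ∀ i ∈ P, IsLExt (F i) (Z i)) :
    O.valuation (∑ i ∈ P, c i * Z i 0) ≤ 1 := by
  have : NeZero (Ideal.absNorm 𝔪) := ⟨fun e => h𝔪 (Ideal.absNorm_eq_zero_iff.1 e)⟩
  obtain ⟨N, hNdef⟩ : ∃ N, N = Ideal.absNorm 𝔪 := ⟨_, rfl⟩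
  have : NeZero N := ⟨hNdef ▸ NeZero.ne _⟩
  have hNm : (N : 𝓞 K) ∈ 𝔪 := hNdef ▸ Ideal.absNorm_mem 𝔪
  rw [← hNdef] at hN
  obtain ⟨w⟩ := (inferInstance : Nonempty (InfinitePlace K))
  obtain ⟨y, hy0, hy1, hyn, hyp, hyℓ⟩ := exists_aux (K := K) hp N w
  obtain ⟨𝔭, h𝔭⟩ : ∃ 𝔭, 𝔭 = Ideal.span {y} := ⟨_, rfl⟩
  have hp𝔭 : 𝔭 ≠ ⊥ := h𝔭 ▸ (by simpa using hy0)
  have hc : 𝔭 ⊔ Ideal.span {(N : 𝓞 K)} = ⊤ := by
    rw [h𝔭, FA.Hecke.span_sup_congr hy1, Ideal.span_singleton_one, top_sup_eq]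
  obtain ⟨M, hMdef⟩ : ∃ M, M = Ideal.absNorm 𝔭 := ⟨_, rfl⟩
  have : NeZero M := ⟨fun e => hp𝔭 (Ideal.absNorm_eq_zero_iff.1 (hMdef ▸ e))⟩
  have hM : ((N * M : ℕ) : 𝓞 K) ∈ 𝔭 := by
    rw [Nat.cast_mul, hMdef]
    exact 𝔭.mul_mem_left _ (Ideal.absNorm_mem 𝔭)
  have hNM : ¬ℓ ∣ N * M := fun hd => (hp.dvd_mul.1 hd).elim hN (by rwa [hMdef, h𝔭])
  choose! l hl hl' using fun i hi => value_eq_classTerm1 (hS i hi) hNm M hp𝔭 hc (hZ i hi)
  have hneg : ∀ i ∈ P, 1 - starRingEnd ℂ (F i 𝔭) = 2 := fun i hi => by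
    rw [h𝔭, (hS i hi).sgn y hy0 (((Ideal.span_singleton_le_iff_mem _).2 hNm) hy1), sgnS,
      Finset.prod_eq_single w
        (fun w' _ hw' => by rw [Real.sign_of_pos (hyp w' hw'), ofReal_one]) (by simp),
      Real.sign_of_neg hyn, ofReal_neg, ofReal_one, map_neg, map_one]
    norm_num
  have e : (2 : ℂ) * ∑ i ∈ P, c i * Z i 0 = ∑ C : ClassGroup (𝓞 K), (feFactor K ⊤ 1 : ℂ) *
      (((1 : ℕ) : ℂ) * classTerm1 C N M (∑ i ∈ P, c i * l i C)) := by
    rw [Finset.mul_sum, Finset.sum_congr rfl fun i hi => show (2 : ℂ) * (c i * Z i 0) =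
      c i * ((feFactor K ⊤ 1 : ℂ) * ∑ C : ClassGroup (𝓞 K), classTerm1 C N M (l i C)) by
        rw [← hl' i hi, hneg i hi]; ring]
    simp only [classTerm1, normVal1, Finset.mul_sum]
    rw [Finset.sum_comm]
    refine Finset.sum_congr rfl fun C _ => Finset.sum_congr rfl fun i _ => ?_
    push_cast
    ring
  have hv2 : O.valuation (2 : ℂ) = 1 := by
    rw [show (2 : ℂ) = ((2 : ℕ) : ℂ) by norm_num]
    exact val_natCast_eq_one hp hℓ fun hd => by
      have := Nat.le_of_dvd two_pos hd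
      omega
  rw [show O.valuation (∑ i ∈ P, c i * Z i 0) = O.valuation ((2 : ℂ) * ∑ i ∈ P, c i * Z i 0) by
    rw [map_mul, hv2, one_mul], e]
  refine Valuation.map_sum_le _ fun C _ => ?_
  rw [classTerm1]
  refine val_term hp hℓ h5 _ hNM 1 le_rfl ?_
  rw [Nat.sub_self, pow_zero, Rat.cast_one, one_mul]
  have hpar : HasParity (Finset.univ : Finset (InfinitePlace K)) 1 := Or.inr ⟨odd_one, rfl⟩
  have hper := isPer_combRes (c := c) hS hpar hNm (repIdeal K C)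
  refine val_normVal1 hp hℓ h5 hNM (isPer_auxHat hper hp𝔭 M hM)
    (hatSum_auxHat_zero hp𝔭 hc M hM hper) ?_ hkn fun d hd => ?_
  · refine Tendsto.congr' ?_ (tendsto_finsetSum _ fun i hi => (hl i hi C).const_mul (c i))
    filter_upwards [self_mem_nhdsWithin] with x (hx : 0 < x)
    simp only [perSum1, ← tsum_mul_left]
    have hb : ∀ i, ∀ d : Rep (dualLat (repIdeal K C) N),
        ‖auxHat (repIdeal K C) N 𝔭 (res 𝔪 (F i) Finset.univ (repIdeal K C)) d.1‖ ≤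
          (∑ r ∈ residues (repIdeal K C) N, ‖res 𝔪 (F i) Finset.univ (repIdeal K C) r‖) *
            (1 + (Ideal.absNorm 𝔭 : ℝ)) := fun i d => by
      rw [auxHat, norm_mul]
      refine mul_le_mul (norm_hatSum_le _) ((norm_sub_le _ _).trans ?_) (norm_nonneg _)
        (Finset.sum_nonneg fun r _ => norm_nonneg _)
      rw [norm_one, norm_mul, Complex.norm_natCast]
      gcongr
      refine mul_le_of_le_one_right (Nat.cast_nonneg _) ?_
      split_ifs <;> simp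
    rw [← Summable.tsum_finsetSum fun i _ => (summable_bounded_one (hb i) hx).mul_left (c i)]
    refine tsum_congr fun d => ?_
    simp only [auxHat, hatSum_comb, Finset.sum_mul]
    exact Finset.sum_congr rfl fun i _ => by ring
  · rw [auxHat, map_mul]
    refine mul_le_one' (val_hatSum (fun r hr => val_combRes h𝔪 hS hval _ hr) hd)
      ((Valuation.map_sub _ _ _).trans (max_le (map_one _).le ?_))
    rw [map_mul]
    refine mul_le_one' (val_natCast_le _) ?_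
    split_ifs <;> simp

/-- The sign of `y w` under a character. -/
theorem sign_at {f : Ideal (𝓞 K) →* ℂ} (h : HasSigns 𝔪 f S) {w : InfinitePlace K} {y : 𝓞 K}
    (hy0 : y ≠ 0) (hy1 : y - 1 ∈ 𝔪) (hn : rv w (y : K) < 0)
    (hpos : ∀ w' : InfinitePlace K, w'.IsReal → w' ≠ w → 0 < rv w' (y : K)) :
    f (Ideal.span {y}) = if w ∈ S then -1 else 1 := by
  have e : ∀ v ∈ S, (Real.sign (rv v (y : K)) : ℂ) = if w = v then -1 else 1 := fun v hv => by
    by_cases hwv : w = v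
    · rw [if_pos hwv, ← hwv, Real.sign_of_neg hn]; simp
    · rw [if_neg hwv, Real.sign_of_pos (hpos v (h.real v hv) (Ne.symm hwv))]; simp
  rw [h.sgn y hy0 hy1, sgnS, Finset.prod_congr rfl e, Finset.prod_ite_eq]

theorem sign_product (S : Finset (InfinitePlace K)) (k : ℕ) :
    ∏ w : InfinitePlace K, (1 + (-1 : ℂ) ^ k * if w ∈ S then -1 else 1) =
      if HasParity S k then 2 ^ Fintype.card (InfinitePlace K) else 0 := by
  split_ifs with hpar
  · rw [← Finset.card_univ]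
    refine Finset.prod_eq_pow_card fun w _ => ?_
    rcases hpar with ⟨hev, rfl⟩ | ⟨hodd, rfl⟩
    · rw [hev.neg_one_pow, if_neg (Finset.notMem_empty w)]; norm_num
    · rw [hodd.neg_one_pow, if_pos (Finset.mem_univ w)]; norm_num
  · rw [Finset.prod_eq_zero_iff]
    rcases Nat.even_or_odd k with hev | hodd
    · obtain ⟨w, hw⟩ : S.Nonempty :=
        Finset.nonempty_iff_ne_empty.2 fun e => hpar (Or.inl ⟨hev, e⟩)
      exact ⟨w, Finset.mem_univ _, by rw [hev.neg_one_pow, if_pos hw]; norm_num⟩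
    · obtain ⟨w, hw⟩ : ∃ w, w ∉ S := by
        by_contra hall
        push Not at hall
        exact hpar (Or.inr ⟨hodd, Finset.eq_univ_iff_forall.2 hall⟩)
      exact ⟨w, Finset.mem_univ _, by rw [hodd.neg_one_pow, if_neg hw]; norm_num⟩

/-- The part of the parity of `k`: the other characters have other signs, and it is still integral
at every ideal. -/
theorem exists_parity_signs [Fintype ι] (hp : ℓ.Prime) (hℓ : O.valuation (ℓ : ℂ) < 1) (h5 : 5 ≤ ℓ)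
    (hF : ∀ i, IsRayChar 𝔪 (F i)) (h𝔪 : 𝔪 ≠ ⊥) (k : ℕ)
    (hval : ∀ A : Ideal (𝓞 K), A ≠ ⊥ → O.valuation (∑ i, c i * F i A) ≤ 1) :
    ∃ (P : Finset ι) (S : Finset (InfinitePlace K)), HasParity S k ∧
      (∀ i ∈ P, HasSigns 𝔪 (F i) S) ∧
      (∀ A : Ideal (𝓞 K), A ≠ ⊥ → O.valuation (∑ i ∈ P, c i * F i A) ≤ 1) ∧
      ∀ i ∉ P, ∃ T, HasSigns 𝔪 (F i) T ∧ ¬HasParity T k := by
  choose Sg hSg using fun i => exists_hasSigns (hF i)
  choose y hy0 hy1 hyn hyp using fun w : InfinitePlace K =>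
    exists_negative_at h𝔪 (IsTotallyReal.isReal w)
  obtain ⟨P, hP⟩ : ∃ P, P = Finset.univ.filter fun i => HasParity (Sg i) k := ⟨_, rfl⟩
  obtain ⟨q, hq⟩ : ∃ q : ℕ, q = 2 ^ Fintype.card (InfinitePlace K) := ⟨_, rfl⟩
  have hqv : O.valuation (q : ℂ) = 1 := val_natCast_eq_one hp hℓ fun hd => by
    have := Nat.le_of_dvd two_pos (hp.dvd_of_dvd_pow (hq ▸ hd))
    omega
  have hvalP : ∀ A : Ideal (𝓞 K), A ≠ ⊥ → O.valuation (∑ i ∈ P, c i * F i A) ≤ 1 := by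
    intro A hA
    have hexp : ∀ i, (if HasParity (Sg i) k then (q : ℂ) else 0) * F i A =
        ∑ T ∈ (Finset.univ : Finset (InfinitePlace K)).powerset,
          ((-1 : ℂ) ^ k) ^ T.card * F i (A * ∏ w ∈ T, Ideal.span {y w}) := by
      intro i
      have e := sign_product (Sg i) k
      simp only [← sign_at (hSg i) (hy0 _) (hy1 _) (hyn _) (hyp _)] at e
      rw [hq, Nat.cast_pow, Nat.cast_ofNat, ← e,
        Finset.prod_congr rfl fun w _ => add_comm (1 : ℂ) _, Finset.prod_add, Finset.sum_mul]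
      refine Finset.sum_congr rfl fun T _ => ?_
      rw [Finset.prod_mul_distrib, Finset.prod_const, Finset.prod_const_one, mul_one, map_mul,
        map_prod]
      ring
    have hkey : (q : ℂ) * ∑ i ∈ P, c i * F i A =
        ∑ T ∈ (Finset.univ : Finset (InfinitePlace K)).powerset,
          ((-1 : ℂ) ^ k) ^ T.card * ∑ i, c i * F i (A * ∏ w ∈ T, Ideal.span {y w}) := by
      calc (q : ℂ) * ∑ i ∈ P, c i * F i A
          = ∑ i, c i * ((if HasParity (Sg i) k then (q : ℂ) else 0) * F i A) := by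
            rw [hP, Finset.sum_filter, Finset.mul_sum]
            refine Finset.sum_congr rfl fun i _ => ?_
            split_ifs <;> ring
        _ = _ := by
            simp only [hexp, Finset.mul_sum]
            rw [Finset.sum_comm]
            exact Finset.sum_congr rfl fun T _ => Finset.sum_congr rfl fun i _ => by ring
    suffices h : O.valuation ((q : ℂ) * ∑ i ∈ P, c i * F i A) ≤ 1 by rwa [map_mul, hqv, one_mul] at h
    rw [hkey]
    refine Valuation.map_sum_le _ fun T _ => ?_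
    rw [map_mul, map_pow, map_pow, Valuation.map_neg, map_one, one_pow, one_pow, one_mul]
    refine hval _ ?_
    have hne : ∀ w, Ideal.span {y w} ≠ (0 : Ideal (𝓞 K)) := fun w => by simpa using hy0 w
    have hprod : (∏ w ∈ T, Ideal.span {y w} : Ideal (𝓞 K)) ≠ 0 :=
      Finset.prod_ne_zero_iff.2 fun w _ => hne w
    exact mul_ne_zero (a := A) hA hprod
  obtain ⟨S, hpar⟩ : ∃ S : Finset (InfinitePlace K), HasParity S k := by
    rcases Nat.even_or_odd k with hev | hodd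
    · exact ⟨∅, Or.inl ⟨hev, rfl⟩⟩
    · exact ⟨Finset.univ, Or.inr ⟨hodd, rfl⟩⟩
  have hS : ∀ i ∈ P, HasSigns 𝔪 (F i) S := fun i hi => by
    rw [hP, Finset.mem_filter] at hi
    have e : Sg i = S := by
      rcases hi.2 with ⟨he, h1⟩ | ⟨ho, h1⟩ <;> rcases hpar with ⟨he', h2⟩ | ⟨ho', h2⟩
      · rw [h1, h2]
      · exact absurd he (Nat.not_even_iff_odd.2 ho')
      · exact absurd he' (Nat.not_even_iff_odd.2 ho)
      · rw [h1, h2]
    exact e ▸ hSg i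
  refine ⟨P, S, hpar, hS, hvalP, fun i hi => ⟨Sg i, hSg i, fun h => hi ?_⟩⟩
  rw [hP]
  exact Finset.mem_filter.2 ⟨Finset.mem_univ _, h⟩

/-- The part of the parity of `k` carries every value at `1 - j`, `j` of that parity, and is still
integral at every ideal. -/
theorem exists_parity_part [Fintype ι] (hp : ℓ.Prime) (hℓ : O.valuation (ℓ : ℂ) < 1) (h5 : 5 ≤ ℓ)
    (hF : ∀ i, IsRayChar 𝔪 (F i)) (h𝔪 : 𝔪 ≠ ⊥) (k : ℕ)
    (hval : ∀ A : Ideal (𝓞 K), A ≠ ⊥ → O.valuation (∑ i, c i * F i A) ≤ 1)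
    {Z : ι → ℂ → ℂ} (hZ : ∀ i, IsLExt (F i) (Z i)) :
    ∃ (P : Finset ι) (S : Finset (InfinitePlace K)), HasParity S k ∧
      (∀ i ∈ P, HasSigns 𝔪 (F i) S) ∧
      (∀ A : Ideal (𝓞 K), A ≠ ⊥ → O.valuation (∑ i ∈ P, c i * F i A) ≤ 1) ∧
      ∀ j : ℕ, (Even j ↔ Even k) → 1 ≤ j → (j ≤ 2 → 2 ≤ finrank ℚ K) →
        ∑ i, c i * Z i (1 - (j : ℂ)) = ∑ i ∈ P, c i * Z i (1 - (j : ℂ)) := by
  obtain ⟨P, S, hpar, hS, hvalP, hout⟩ := exists_parity_signs hp hℓ h5 hF h𝔪 k hval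
  refine ⟨P, S, hpar, hS, hvalP, fun j hj hj1 hj2 => (Finset.sum_subset (Finset.subset_univ P)
    fun i _ hi => ?_).symm⟩
  obtain ⟨T, hT, hTp⟩ := hout i hi
  rw [value_zero_of_not_parity hT hj1 (fun e => hj2 (by omega))
    (fun h => hTp (by rwa [HasParity, ← Nat.not_even_iff_odd, ← hj, Nat.not_even_iff_odd]))
    (hZ i), mul_zero]

/-- **The integrality of combinations.** -/
theorem val_combination [Fintype ι] (hp : ℓ.Prime) (hℓ : O.valuation (ℓ : ℂ) < 1) (h5 : 5 ≤ ℓ)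
    (hF : ∀ i, IsRayChar 𝔪 (F i)) (h𝔪 : 𝔪 ≠ ⊥) (hk : 1 ≤ k) (hk2 : k ≤ 2 → 2 ≤ finrank ℚ K)
    (hkn : FA.WeightLevel.Admissible ℓ (k * finrank ℚ K)) (hN : ¬ℓ ∣ Ideal.absNorm 𝔪)
    (hval : ∀ A : Ideal (𝓞 K), A ≠ ⊥ → O.valuation (∑ i, c i * F i A) ≤ 1)
    {Z : ι → ℂ → ℂ} (hZ : ∀ i, IsLExt (F i) (Z i)) :
    O.valuation (∑ i, c i * Z i (1 - (k : ℂ))) ≤ 1 := by
  obtain ⟨P, S, hpar, hS, hvalP, hPz⟩ := exists_parity_part hp hℓ h5 hF h𝔪 k hval hZ
  rw [hPz k Iff.rfl hk hk2]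
  rcases Nat.eq_or_lt_of_le hk with hk1 | hk'
  · subst hk1
    rw [FA.KlingenZero.one_sub_one]
    obtain rfl : S = Finset.univ := by
      rcases hpar with ⟨he, -⟩ | ⟨-, h⟩
      · exact absurd he Nat.not_even_one
      · exact h
    exact val_parity_one hp hℓ h5 h𝔪 hS (by rwa [one_mul] at hkn) hN hvalP fun i _ => hZ i
  · exact val_parity hp hℓ h5 h𝔪 hS hk' (fun e => hk2 e.le) hpar hkn hN hvalP fun i _ => hZ i

end FA.ClassIntegral

end
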