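import Fermat.Agent.ClassIntegral.Transform

/-!
# The residue function of an imprimitive character

If `f` modulo `𝔪` is induced by `g` modulo `𝔣`, its residue function on `J` is the alternating sum,
over the products `D` of the primes of `𝔪` where `g` is not zero, of `g (D)` times the residue
functions of `g` on `D J`; the same sum of `g (D) N D ^ (k-1)` is the product of the Euler factors.
-/

set_option autoImplicit false
set_option linter.unusedSectionVars false
set_option linter.style.haveILetI false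

noncomputable section

open NumberField InfinitePlace IsDedekindDomain Module Filter Complex
open scoped Real nonZeroDivisors Classical Topology

namespace FA.ClassIntegral

open FA.HeckeFE FA.SiegelKlingen FA.HeckeCharFE FA.KlingenRay
open FA.Hecke (IsRayChar IsNontrivial fPow)
open FA.KlingenZero (mem_mul_modUnit_iff mem_of_mem_mul_modUnit pMul_subset)
open FA.PadicEulerFactor (pMul)

variable {K : Type*} [Field K] [NumberField K]
variable {𝔪 𝔣 : Ideal (𝓞 K)} {f g : Ideal (𝓞 K) →* ℂ} {S : Finset (InfinitePlace K)}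

/-- The primes where `f` vanishes and `g` does not. -/
def badSet (hf : IsRayChar 𝔪 f) (g : Ideal (𝓞 K) →* ℂ) : Finset (HeightOneSpectrum (𝓞 K)) :=
  hf.finite_zero.toFinset.filter fun v => g v.asIdeal ≠ 0

/-- The product of a set of primes. -/
def subIdeal (t : Finset (HeightOneSpectrum (𝓞 K))) : Ideal (𝓞 K) := ∏ v ∈ t, v.asIdeal

theorem subIdeal_ne_bot (t : Finset (HeightOneSpectrum (𝓞 K))) : subIdeal t ≠ ⊥ :=
  Finset.prod_ne_zero_iff.2 fun v _ => v.ne_bot

theorem pairwise_coprime (t : Finset (HeightOneSpectrum (𝓞 K))) :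
    (t : Set (HeightOneSpectrum (𝓞 K))).Pairwise
      (Function.onFun IsCoprime fun v => v.asIdeal) := fun a _ b _ hab =>
  Ideal.isCoprime_iff_sup_eq.2 (a.isPrime.isMaximal a.ne_bot |>.coprime_of_ne
    (b.isPrime.isMaximal b.ne_bot) fun e => hab (HeightOneSpectrum.ext e))

theorem subIdeal_dvd_iff (t : Finset (HeightOneSpectrum (𝓞 K))) (A : Ideal (𝓞 K)) :
    subIdeal t ∣ A ↔ ∀ v ∈ t, v.asIdeal ∣ A :=
  ⟨fun h _ hv => (Finset.dvd_prod_of_mem _ hv).trans h,
    fun h => Finset.prod_dvd_of_coprime (pairwise_coprime t) h⟩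

/-- The modulus is inside `D 𝔣`. -/
theorem le_subIdeal_mul (hf : IsRayChar 𝔪 f) (hg : IsRayChar 𝔣 g) (hle : 𝔪 ≤ 𝔣)
    {t : Finset (HeightOneSpectrum (𝓞 K))} (ht : t ∈ (badSet hf g).powerset) :
    𝔪 ≤ subIdeal t * 𝔣 := by
  rw [Finset.mem_powerset] at ht
  refine Ideal.dvd_iff_le.1 ((IsCoprime.prod_left fun v hv => ?_).mul_dvd
    ((subIdeal_dvd_iff t 𝔪).2 fun v hv => ?_) (Ideal.dvd_iff_le.2 hle))
  · have h := Finset.mem_filter.1 (ht hv)
    exact Ideal.isCoprime_iff_sup_eq.2 ((hg.ne_zero_iff _ v.ne_bot).1 h.2)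
  · have h := Finset.mem_filter.1 (ht hv)
    rw [Set.Finite.mem_toFinset] at h
    refine Ideal.dvd_iff_le.2 ?_
    by_contra hle'
    refine (hf.ne_zero_iff _ v.ne_bot).2 ?_ h.1
    exact ((v.isPrime.isMaximal v.ne_bot).out.2 _ (left_lt_sup.2 hle'))

/-- The signs of the inducing character. -/
theorem signs_of_induced (hf : IsRayChar 𝔪 f) (hg : HasSigns 𝔣 g S) (hle : 𝔪 ≤ 𝔣)
    (hgf : ∀ I : Ideal (𝓞 K), I ≠ ⊥ → I ⊔ 𝔪 = ⊤ → g I = f I) : HasSigns 𝔪 f S :=
  ⟨hf, hg.real, fun x hx hx1 => by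
    rw [← hgf _ (by simpa using hx) (by rw [FA.Hecke.span_sup_congr hx1, Ideal.span_singleton_one,
      top_sup_eq]), hg.sgn x hx (hle hx1)]⟩

/-- The expansion of a product. -/
theorem prod_one_sub_eq {ι : Type*} (T : Finset ι) (a : ι → ℂ) :
    ∏ v ∈ T, (1 - a v) = ∑ t ∈ T.powerset, (-1) ^ t.card * ∏ v ∈ t, a v := by
  have e : ∀ v, 1 - a v = -a v + 1 := fun v => by ring
  rw [Finset.prod_congr rfl fun v _ => e v, Finset.prod_add]
  refine Finset.sum_congr rfl fun t _ => ?_
  rw [Finset.prod_const_one, mul_one, Finset.prod_neg]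

/-- **The Euler factors as a sum.** -/
theorem sum_factors (hf : IsRayChar 𝔪 f) {k : ℕ} (hk : 1 ≤ k) :
    ∑ t ∈ (badSet hf g).powerset, (-1) ^ t.card * g (subIdeal t) *
        (Ideal.absNorm (subIdeal t) : ℂ) ^ (k - 1) =
      ∏ v ∈ hf.finite_zero.toFinset, (1 - fPow g (1 - (k : ℂ)) v) := by
  have e : ∏ v ∈ hf.finite_zero.toFinset, (1 - fPow g (1 - (k : ℂ)) v) =
      ∏ v ∈ badSet hf g, (1 - g v.asIdeal * (Ideal.absNorm v.asIdeal : ℂ) ^ (k - 1)) := by
    rw [badSet, Finset.prod_filter_of_ne fun v _ h => ?_]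
    · exact Finset.prod_congr rfl fun v _ => by rw [fPow, primePow_one_sub v hk]
    · intro h0
      exact h (by rw [h0, zero_mul, sub_zero])
  rw [e, prod_one_sub_eq]
  refine Finset.sum_congr rfl fun t _ => ?_
  rw [Finset.prod_mul_distrib, Finset.prod_pow, subIdeal, map_prod g, map_prod Ideal.absNorm]
  push_cast
  ring

variable [IsTotallyReal K]

/-- **The residue function of an imprimitive character.** -/
theorem res_decompose (hf : IsRayChar 𝔪 f) (hg : HasSigns 𝔣 g S) (hle : 𝔪 ≤ 𝔣)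
    (hgf : ∀ I : Ideal (𝓞 K), I ≠ ⊥ → I ⊔ 𝔪 = ⊤ → g I = f I) (J : (FractionalIdeal (𝓞 K)⁰ K)ˣ)
    {x : K} (hx : x ∈ (J : Set K)) :
    res 𝔪 f S J x = ∑ t ∈ (badSet hf g).powerset,
      (-1) ^ t.card * g (subIdeal t) * res 𝔣 g S (J * modUnit (subIdeal t)) x := by
  have hS := signs_of_induced hf hg hle hgf
  have key : ∀ x : K, x ∈ (J : Set K) → x ≠ 0 → res 𝔪 f S J x = ∑ t ∈ (badSet hf g).powerset,
      (-1) ^ t.card * g (subIdeal t) * res 𝔣 g S (J * modUnit (subIdeal t)) x := by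
    intro x hx hx0
    obtain ⟨A, hA⟩ := hS.exists_quotient_ideal J hx
    have hA0 : A ≠ ⊥ := fun e => by
      rw [e, FractionalIdeal.coeIdeal_bot, zero_mul, eq_comm,
        FractionalIdeal.spanSingleton_eq_zero_iff] at hA
      exact hx0 hA
    have hterm : ∀ t, g (subIdeal t) * res 𝔣 g S (J * modUnit (subIdeal t)) x =
        (∏ v ∈ t, if v.asIdeal ∣ A then (1 : ℂ) else 0) * (g A * sgnS S x) := by
      intro t
      have hmem : x ∈ ((J * modUnit (subIdeal t) : _) : Set K) ↔ subIdeal t ∣ A := by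
        constructor
        · intro hm
          obtain ⟨B, hB⟩ := hg.exists_quotient_ideal (J * modUnit (subIdeal t)) hm
          refine ⟨B, FractionalIdeal.coeIdeal_injective (K := K) ?_⟩
          refine mul_right_cancel₀ J.ne_zero ?_
          show (A : FractionalIdeal (𝓞 K)⁰ K) * J = ((subIdeal t * B : Ideal (𝓞 K)) :) * J
          rw [hA, ← hB, FractionalIdeal.coeIdeal_mul, Units.val_mul,
            coe_modUnit (subIdeal_ne_bot t)]
          ring
        · rintro ⟨B, rfl⟩
          show x ∈ ((J * modUnit (subIdeal t) : _) : FractionalIdeal (𝓞 K)⁰ K)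
          rw [← FractionalIdeal.spanSingleton_le_iff_mem, ← hA, Units.val_mul,
            coe_modUnit (subIdeal_ne_bot t), FractionalIdeal.coeIdeal_mul]
          calc (subIdeal t : FractionalIdeal (𝓞 K)⁰ K) * B * J
              ≤ (subIdeal t : FractionalIdeal (𝓞 K)⁰ K) * 1 * J :=
                mul_le_mul' (mul_le_mul' le_rfl FractionalIdeal.coeIdeal_le_one) le_rfl
            _ = _ := by rw [mul_one, mul_comm]
      by_cases hd : subIdeal t ∣ A
      · obtain ⟨B, rfl⟩ := hd
        rw [hg.res_eq _ (hmem.2 (dvd_mul_right _ _)) hx0 (A := B) (by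
            rw [← hA, FractionalIdeal.coeIdeal_mul, Units.val_mul,
              coe_modUnit (subIdeal_ne_bot t)]
            ring),
          Finset.prod_eq_one fun v hv => if_pos ((subIdeal_dvd_iff t _).1 (dvd_mul_right _ _) v hv),
          map_mul]
        ring
      · rw [show res 𝔣 g S (J * modUnit (subIdeal t)) x = 0 by
          rw [res, if_neg fun h => hd (hmem.1 h)], mul_zero]
        rw [subIdeal_dvd_iff] at hd
        push Not at hd
        obtain ⟨v, hv, hvA⟩ := hd
        rw [Finset.prod_eq_zero hv (if_neg hvA), zero_mul]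
    simp only [mul_assoc ((-1 : ℂ) ^ Finset.card _), hterm]
    simp only [← mul_assoc ((-1 : ℂ) ^ Finset.card _)]
    rw [← Finset.sum_mul, ← prod_one_sub_eq, hS.res_eq J hx hx0 hA, ← mul_assoc]
    congr 1
    by_cases hc : A ⊔ 𝔪 = ⊤
    · rw [hgf A hA0 hc, Finset.prod_eq_one fun v hv => ?_, one_mul]
      rw [if_neg, sub_zero]
      intro hvA
      have h0 := (Finset.mem_filter.1 hv).1
      rw [Set.Finite.mem_toFinset] at h0
      exact (hf.ne_zero_iff _ v.ne_bot).2
        (top_le_iff.1 (hc.ge.trans (sup_le_sup_right (Ideal.dvd_iff_le.1 hvA) _))) h0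
    · rw [hf.eq_zero_of_not hA0 hc]
      obtain ⟨P, hP, hPle⟩ := Ideal.exists_le_maximal _ hc
      have hP0 : P ≠ ⊥ := fun e => hf.ne_bot (le_bot_iff.1 (e ▸ le_sup_right.trans hPle))
      obtain ⟨B, hB⟩ := Ideal.dvd_iff_le.2 (le_sup_left.trans hPle)
      by_cases hgP : g P = 0
      · rw [hB, map_mul, hgP, zero_mul, mul_zero]
      · rw [Finset.prod_eq_zero (i := (⟨P, hP.isPrime, hP0⟩ : HeightOneSpectrum (𝓞 K))) ?_ ?_,
          zero_mul]
        · refine Finset.mem_filter.2 ⟨(Set.Finite.mem_toFinset _).2 ?_, hgP⟩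
          by_contra hfP
          exact hP.ne_top (top_le_iff.1 (((hf.ne_zero_iff P hP0).1 hfP).ge.trans
            (sup_le le_rfl (le_sup_right.trans hPle))))
        · rw [if_pos (Ideal.dvd_iff_le.2 (le_sup_left.trans hPle)), sub_self]
  by_cases hx0 : x = 0
  · obtain ⟨y, hy, hy0⟩ : ∃ y, y ∈ ((J * modUnit 𝔪 : _) : Set K) ∧ y ≠ 0 := by
      by_contra hne
      push Not at hne
      exact (J * modUnit 𝔪).ne_zero (FractionalIdeal.eq_zero_iff.2 hne)
    have hyJ := mem_of_mem_mul_modUnit J hf.ne_bot hy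
    subst hx0
    rw [hS.res_congr J hx hyJ (by
      rw [zero_sub]
      exact Submodule.neg_mem _ ((mem_mul_modUnit_iff J hf.ne_bot y).1 hy)), key y hyJ hy0]
    refine Finset.sum_congr rfl fun t ht => ?_
    have hsub : y ∈ ((J * modUnit (subIdeal t * 𝔣) : _) : Set K) := by
      have hne : subIdeal t * 𝔣 ≠ ⊥ := mul_ne_zero (subIdeal_ne_bot t) hg.ne_bot
      rw [mem_mul_modUnit_iff J hne]
      exact (mul_le_mul' le_rfl ((FractionalIdeal.coeIdeal_le_coeIdeal K).2
        (le_subIdeal_mul hf hg.ray hle ht))) ((mem_mul_modUnit_iff J hf.ne_bot y).1 hy)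
    conv_lhs => rw [← zero_add y, res_sub_periodic hg (subIdeal_ne_bot t) hsub]
  · exact key x hx hx0

end FA.ClassIntegral

end
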