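import Fermat.Agent.KlingenIntegral.Values

/-!
# Finite Fourier transforms on the residues of a lattice

The residues of `J` modulo `N J` that lie in `E J` number `N ^ n / N E`. The transform of a periodic
function is periodic on the dual of `N J`; that of a primitive residue function of a sublattice is
this number times the Gauss sum times the conjugate one, on the dual of the sublattice.
-/

set_option autoImplicit false
set_option linter.unusedSectionVars false
set_option linter.style.haveILetI false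

noncomputable section

open NumberField InfinitePlace Module Filter Complex
open scoped Real nonZeroDivisors Classical Topology

namespace FA.ClassIntegral

open FA.HeckeFE FA.SiegelKlingen FA.HeckeCharFE FA.KlingenRay FA.KlingenIntegral
open FA.KlingenZero (mem_mul_modUnit_iff mem_of_mem_mul_modUnit pMul_subset sum_residues_add
  exists_translations perSum1)
open FA.PadicEulerFactor (pMul mem_pMul add_mem_lat int_mul_mem)

variable {K : Type*} [Field K] [NumberField K]
variable {D E : Ideal (𝓞 K)}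

theorem modUnit_mul (hD : D ≠ ⊥) (hE : E ≠ ⊥) : modUnit (D * E) = modUnit D * modUnit E := by
  refine Units.ext ?_
  rw [Units.val_mul, coe_modUnit hD, coe_modUnit hE,
    coe_modUnit (mul_ne_zero hD hE : D * E ≠ ⊥), FractionalIdeal.coeIdeal_mul]

theorem trChar_eq_one {x : K} (h : trChar x = 1) : ∃ n : ℤ, Algebra.trace ℚ K x = (n : ℚ) := by
  obtain ⟨n, hn⟩ := Complex.exp_eq_one_iff.1 h
  refine ⟨n, Rat.cast_injective (α := ℂ) ?_⟩
  have h2 : (2 * (π : ℂ) * I) ≠ 0 := by simp [Real.pi_ne_zero]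
  rw [Rat.cast_intCast]
  exact mul_left_cancel₀ h2 (hn.trans (mul_comm _ _))

variable [IsTotallyReal K] (J : (FractionalIdeal (𝓞 K)⁰ K)ˣ) (N : ℕ) [NeZero N]

variable (E) in
/-- The number of residues in `E J`. -/
def resCount : ℕ := ((residues J N).filter fun r => r ∈ ((J * modUnit E : _) : Set K)).card

/-- The dual of `N J`. -/
abbrev dualLat : (FractionalIdeal (𝓞 K)⁰ K)ˣ := dualIdeal (pMul J N)

variable {J N}

theorem indicator_periodic (hE : E ≠ ⊥) (hN : (N : 𝓞 K) ∈ E) {x y : K}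
    (hy : y ∈ (pMul J N : Set K)) :
    x + y ∈ ((J * modUnit E : _) : Set K) ↔ x ∈ ((J * modUnit E : _) : Set K) :=
  ⟨fun h => by simpa using sub_mem_lat _ h (pMul_subset J hE hN hy),
    fun h => add_mem_lat h (pMul_subset J hE hN hy)⟩

theorem sum_indicator_shift (hE : E ≠ ⊥) (hN : (N : 𝓞 K) ∈ E) {z : K} (hz : z ∈ (J : Set K)) :
    (∑ r ∈ residues J N, if r - z ∈ ((J * modUnit E : _) : Set K) then (1 : ℕ) else 0) =
      resCount E J N := by
  have h := sum_residues_add J N (fun x => if x ∈ ((J * modUnit E : _) : Set K) then (1 : ℕ) else 0)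
    (fun x _ y hy => by simp only [indicator_periodic hE hN hy])
    (show -z ∈ (J : Set K) from by
      have := sub_mem_lat J (zero_mem_ideal J) hz
      rwa [zero_sub] at this)
  simp only [← sub_eq_add_neg] at h
  rw [h, Finset.sum_boole, resCount, Nat.cast_id]

theorem absNorm_mul_resCount (hE : E ≠ ⊥) (hN : (N : 𝓞 K) ∈ E) :
    Ideal.absNorm E * resCount E J N = (residues J N).card := by
  obtain ⟨z, hz, hz1⟩ := exists_translations J (𝔭 := E) (𝔪 := ⊤) hE (by simp) (by simp)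
  have : Finite (𝓞 K ⧸ E) := Ideal.finiteQuotientOfFreeOfNeBot E hE
  let _ := Fintype.ofFinite (𝓞 K ⧸ E)
  have hzJ : ∀ b, -z b ∈ (J : Set K) := fun b => by
    have h := sub_mem_lat J (zero_mem_ideal J)
      (((mul_le_mul' le_rfl FractionalIdeal.coeIdeal_le_one).trans (mul_one _).le) (hz b))
    rwa [zero_sub] at h
  rw [Ideal.absNorm_apply, Submodule.cardQuot_apply, Nat.card_eq_fintype_card, ← smul_eq_mul,
    ← Finset.card_univ, ← Finset.sum_const, Finset.card_eq_sum_ones (residues J N),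
    ← Finset.sum_congr rfl fun b _ => sum_indicator_shift hE hN (hzJ b), Finset.sum_comm]
  refine Finset.sum_congr rfl fun r hr => ?_
  obtain ⟨b, hb, hbu⟩ := hz1 r (residues_mem J N hr)
  rw [Finset.sum_eq_single b (fun c _ hcb => if_neg fun hc => hcb (hbu c (by simpa using hc)))
    (by simp), if_pos (by simpa using hb)]

theorem absNorm_mul_resCount' (hE : E ≠ ⊥) (hN : (N : 𝓞 K) ∈ E) :
    Ideal.absNorm E * resCount E J N = N ^ finrank ℚ K := by
  rw [absNorm_mul_resCount hE hN]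
  have h0 : Ideal.span {(N : 𝓞 K)} ≠ ⊥ := by simp [NeZero.ne N]
  have hJ : J * modUnit (Ideal.span {(N : 𝓞 K)}) = pMul J N := by
    refine Units.ext ?_
    rw [Units.val_mul, coe_modUnit h0, FractionalIdeal.coeIdeal_span_singleton, pMul,
      Units.val_mul, Units.val_mk0, map_natCast, mul_comm]
  have hc : resCount (Ideal.span {(N : 𝓞 K)}) J N = 1 := by
    obtain ⟨r, ⟨hr, hr0⟩, hru⟩ := existsUnique_residue J N (zero_mem_ideal J)
    rw [resCount, hJ, Finset.card_eq_one]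
    refine ⟨r, Finset.eq_singleton_iff_unique_mem.2 ⟨Finset.mem_filter.2 ⟨hr, ?_⟩, fun s hs => ?_⟩⟩
    · have h := sub_mem_lat (pMul J N) (zero_mem_ideal _) hr0
      simpa using h
    · rw [Finset.mem_filter] at hs
      refine hru s ⟨hs.1, ?_⟩
      exact sub_mem_lat (pMul J N) (zero_mem_ideal _) hs.2
  have h := absNorm_mul_resCount (J := J) h0 (Ideal.mem_span_singleton_self _)
  rw [hc, mul_one] at h
  rw [← h]
  have h1 := congrArg (fun I : (FractionalIdeal (𝓞 K)⁰ K)ˣ =>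
    FractionalIdeal.absNorm (I : FractionalIdeal (𝓞 K)⁰ K)) hJ
  rw [Units.val_mul, map_mul, coe_modUnit h0, FractionalIdeal.coeIdeal_absNorm, absNorm_pMul,
    mul_comm] at h1
  have hne : FractionalIdeal.absNorm (J : FractionalIdeal (𝓞 K)⁰ K) ≠ 0 := fun e =>
    J.ne_zero (FractionalIdeal.absNorm_eq_zero_iff.1 e)
  exact_mod_cast mul_right_cancel₀ hne h1

/-- The dual of `E J` lies in that of `N J`. -/
theorem dual_subset (hE : E ≠ ⊥) (hN : (N : 𝓞 K) ∈ E) {ν : K}
    (hν : ν ∈ (dualIdeal (J * modUnit E) : Set K)) : ν ∈ (dualLat J N : Set K) :=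
  (FractionalIdeal.mem_dual (A := ℤ) (K := ℚ) (pMul J N).ne_zero).2 fun x hx =>
    (FractionalIdeal.mem_dual (A := ℤ) (K := ℚ) (J * modUnit E).ne_zero).1 hν x
      (pMul_subset J hE hN hx)

theorem normR_dual (hE : E ≠ ⊥) (hN : (N : 𝓞 K) ∈ E) :
    normR (dualIdeal (J * modUnit E)) = normR (dualLat J N) * (resCount E J N : ℝ) := by
  have h1 : normR (pMul J N) = (N : ℝ) ^ finrank ℚ K * normR J := by
    rw [normR, normR, absNorm_pMul]
    push_cast
    ring
  have h2 : ((Ideal.absNorm E : ℝ)) * (resCount E J N : ℝ) = (N : ℝ) ^ finrank ℚ K := by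
    exact_mod_cast absNorm_mul_resCount' hE hN
  have hE0 : (Ideal.absNorm E : ℝ) ≠ 0 :=
    Nat.cast_ne_zero.2 fun e => hE (Ideal.absNorm_eq_zero_iff.1 e)
  have hd : |((discr K : ℤ) : ℝ)| ≠ 0 := abs_ne_zero.2 (Int.cast_ne_zero.2 (discr_ne_zero K))
  rw [normR_dualIdeal, normR_dualIdeal, normR_mul_modUnit hE, h1]
  have := (normR_pos J).ne'
  have hNn : (N : ℝ) ^ finrank ℚ K ≠ 0 := pow_ne_zero _ (Nat.cast_ne_zero.2 (NeZero.ne N))
  field_simp
  linear_combination -h2

/-- Multiplication by a unit permutes the residues. -/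
theorem sum_residues_unit (g : K → ℂ)
    (hg : ∀ x ∈ (J : Set K), ∀ y ∈ (pMul J N : Set K), g (x + y) = g x)
    (m : RestPlace K → ℤ) :
    ∑ r ∈ residues J N, g (unitVal m * r) = ∑ r ∈ residues J N, g r := by
  choose ρ hρ hρu using fun (x : K) (hx : x ∈ (J : Set K)) => existsUnique_residue J N hx
  have hmul : ∀ (a : RestPlace K → ℤ) {x : K}, x ∈ (J : Set K) → unitVal a * x ∈ (J : Set K) :=
    fun a x hx => unitVal_mul_mem J a hx
  have key : ∀ (a : RestPlace K → ℤ) {r : K} (hr : r ∈ residues J N),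
      ρ (unitVal (-a) * ρ (unitVal a * r) (hmul a (residues_mem J N hr)))
        (hmul (-a) (residues_mem J N (hρ _ _).1)) = r := fun a r hr => by
    refine ((hρu _ _) r ⟨hr, ?_⟩).symm
    have h := unitVal_mul_mem (pMul J N) (-a) (hρ _ (hmul a (residues_mem J N hr))).2
    rw [mul_sub, ← mul_assoc, ← unitVal_add, neg_add_cancel, unitVal_zero, one_mul] at h
    have h' := sub_mem_lat (pMul J N) (zero_mem_ideal _) h
    simpa using h'
  refine Finset.sum_bij' (fun r hr => ρ _ (hmul m (residues_mem J N hr)))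
    (fun r hr => ρ _ (hmul (-m) (residues_mem J N hr))) (fun r hr => (hρ _ _).1)
    (fun r hr => (hρ _ _).1) (fun r hr => key m hr)
    (fun r hr => by simpa using key (-m) hr) fun r hr => ?_
  have h1 := hρ _ (hmul m (residues_mem J N hr))
  conv_lhs => rw [← add_sub_cancel (ρ (unitVal m * r) (hmul m (residues_mem J N hr))) (unitVal m * r)]
  exact hg _ (residues_mem J N h1.1) _ h1.2

theorem trChar_dual_periodic {ν x y : K} (hν : ν ∈ (dualLat J N : Set K))
    (hy : y ∈ (pMul J N : Set K)) : trChar (ν * (x + y)) = trChar (ν * x) := by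
  rw [mul_add, trChar_add, trChar_mul_eq_one hν hy, mul_one]

/-- **The transform is periodic on the dual, with the parity of the function.** -/
theorem isPer_hatSum {k : ℕ} {Φ : K → ℂ} (h : IsPer J N k Φ) (M : ℕ) [NeZero M] :
    IsPer (dualLat J N) (N * M) k (hatSum J N Φ) where
  periodic d _ y hy := by
    refine Finset.sum_congr rfl fun r hr => ?_
    congr 1
    obtain ⟨z, hz⟩ : ∃ z, z = y / ((N * M : ℕ) : K) := ⟨_, rfl⟩
    have hzm : z ∈ (dualLat J N : Set K) := hz ▸ mem_pMul.1 hy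
    have hy' : y = (N : K) * (z * ((M : ℤ) : K)) := by
      rw [hz]
      have hNM : ((N * M : ℕ) : K) ≠ 0 := Nat.cast_ne_zero.2 (NeZero.ne _)
      push_cast at hNM ⊢
      field_simp
      rw [mul_assoc y, mul_div_cancel_right₀ _ hNM]
    rw [add_mul, trChar_add, trChar_mul_eq_one (M := J) (z := y) ?_ (residues_mem J N hr), mul_one]
    rw [hy']
    exact FA.KlingenTwo.natCast_mul_mem_dual J N (int_mul_mem _ hzm)
  unit m d hd := by
    obtain ⟨c, hc⟩ : ∃ c : ℂ, c = ((Algebra.norm ℚ (unitVal (K := K) m) : ℚ) : ℂ) ^ k := ⟨_, rfl⟩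
    have hcc : c * c = 1 := by
      have hu : |Algebra.norm ℚ (unitVal (K := K) m)| = 1 := unit_norm (unitPow m)
      rw [hc, ← mul_pow, ← Rat.cast_mul, ← abs_mul_abs_self, hu, mul_one, Rat.cast_one, one_pow]
    have e := sum_residues_unit (J := J) (N := N) (fun x => Φ x * trChar (d * x))
      (fun x hx y hy => by rw [h.periodic x hx y hy, trChar_dual_periodic hd hy]) m
    rw [← hc]
    calc hatSum J N Φ (unitVal m * d) = c * ∑ r ∈ residues J N,
          Φ (unitVal m * r) * trChar (d * (unitVal m * r)) := by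
          rw [hatSum, Finset.mul_sum]
          refine Finset.sum_congr rfl fun r hr => ?_
          rw [h.unit m r (residues_mem J N hr), ← hc, ← mul_assoc, ← mul_assoc, hcc, one_mul,
            mul_left_comm d, mul_assoc]
      _ = c * hatSum J N Φ d := by rw [e, hatSum]

section Component

variable {𝔣 : Ideal (𝓞 K)} {g : Ideal (𝓞 K) →* ℂ} {S : Finset (InfinitePlace K)}

/-- The residue function of the sublattice is periodic. -/
theorem res_sub_periodic (h : HasSigns 𝔣 g S) (hD : D ≠ ⊥) {x y : K}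
    (hy : y ∈ ((J * modUnit (D * 𝔣) : _) : Set K)) :
    res 𝔣 g S (J * modUnit D) (x + y) = res 𝔣 g S (J * modUnit D) x := by
  rw [modUnit_mul hD h.ne_bot, ← mul_assoc] at hy
  have hyL := mem_of_mem_mul_modUnit (J * modUnit D) h.ne_bot hy
  by_cases hx : x ∈ ((J * modUnit D : _) : Set K)
  · refine h.res_congr _ (add_mem_lat hx hyL) hx ?_
    rw [add_sub_cancel_left]
    exact (mem_mul_modUnit_iff _ h.ne_bot y).1 hy
  · have hxy : x + y ∉ ((J * modUnit D : _) : Set K) := fun h' =>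
      hx (by simpa using sub_mem_lat _ h' hyL)
    rw [res, res, if_neg hx, if_neg hxy]

/-- Every element of the sublattice has one coset representative. -/
theorem existsUnique_cosetRep (h : HasSigns 𝔣 g S) (L : (FractionalIdeal (𝓞 K)⁰ K)ˣ) {x : K}
    (hx : x ∈ (L : Set K)) :
    ∃! b : 𝓞 K ⧸ 𝔣, x - cosetRep 𝔣 L b ∈ ((L * modUnit 𝔣 : _) : Set K) := by
  obtain ⟨hγ, -, -, hcop⟩ := intIdeal_spec 𝔣 L
  obtain ⟨hu, hu1, -⟩ := unitElt_spec h.ne_bot L
  obtain ⟨hr1, hr2⟩ := toInt_spec 𝔣 hx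
  have key : ∀ b : 𝓞 K ⧸ 𝔣, x - cosetRep 𝔣 L b ∈ ((L * modUnit 𝔣 : _) : Set K) ↔
      b = Ideal.Quotient.mk 𝔣 (toInt 𝔣 L x) := fun b => by
    have hmk : Ideal.Quotient.mk 𝔣 (toInt 𝔣 L x - unitElt 𝔣 L * b.out) =
        Ideal.Quotient.mk 𝔣 (toInt 𝔣 L x) - b := by
      rw [map_sub, map_mul, Ideal.Quotient.mk_out,
        Ideal.Quotient.eq.2 (show unitElt 𝔣 L - 1 ∈ 𝔣 from hu1), map_one, one_mul]
    have hmem : (toInt 𝔣 L x - unitElt 𝔣 L * b.out : 𝓞 K) ∈ intIdeal 𝔣 L :=
      Ideal.sub_mem _ hr2 (Ideal.mul_mem_right _ _ hu)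
    rw [mem_mul_modUnit_iff L h.ne_bot, mem_mul_iff (𝔪 := 𝔣) 𝔣, eq_comm (a := b),
      ← sub_eq_zero (b := b), ← hmk, Ideal.Quotient.eq_zero_iff_mem,
      Ideal.mul_eq_inf_of_coprime (hcop h.ne_bot)]
    refine ⟨fun ⟨y, hy, hye⟩ => ?_, fun h' => ⟨_, ⟨hmem, h'⟩, ?_⟩⟩
    · have e1 : y = toInt 𝔣 L x - unitElt 𝔣 L * b.out := RingOfIntegers.ext (by
        rw [hye, mul_sub, cosetRep, mul_inv_cancel_left₀ hγ, ← hr1]
        push_cast
        rfl)
      exact e1 ▸ hy.2
    · rw [mul_sub, cosetRep, mul_inv_cancel_left₀ hγ, ← hr1]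
      push_cast
      rfl
  exact ⟨_, (key _).2 rfl, fun b hb => (key b).1 hb⟩

/-- **The transform of a component.** -/
theorem hatSum_component (h : HasSigns 𝔣 g S) (hp : IsPrimitiveChar 𝔣 g) (hD : D ≠ ⊥)
    (hN : (N : 𝓞 K) ∈ D * 𝔣) {ν : K} (hν : ν ∈ (dualLat J N : Set K)) :
    hatSum J N (res 𝔣 g S (J * modUnit D)) ν = (resCount (D * 𝔣) J N : ℂ) *
      (gaussW 𝔣 g S * res 𝔣 (conjChar g) S (dualAt 𝔣 (J * modUnit D)) ν) := by
  have hE : D * 𝔣 ≠ ⊥ := mul_ne_zero hD h.ne_bot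
  have hL : J * modUnit D * modUnit 𝔣 = J * modUnit (D * 𝔣) := by
    rw [modUnit_mul hD h.ne_bot, mul_assoc]
  obtain ⟨G, hG⟩ : ∃ G : K → ℂ, G = fun x => res 𝔣 g S (J * modUnit D) x * trChar (ν * x) :=
    ⟨_, rfl⟩
  have hsum : hatSum J N (res 𝔣 g S (J * modUnit D)) ν = ∑ r ∈ residues J N, G r := by
    rw [hatSum, hG]
  have hper : ∀ x ∈ (J : Set K), ∀ y ∈ (pMul J N : Set K), G (x + y) = G x := fun x _ y hy => by
    simp only [hG, res_sub_periodic h hD (pMul_subset J hE hN hy), trChar_dual_periodic hν hy]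
  rw [hsum]
  by_cases hν' : ν ∈ (dualAt 𝔣 (J * modUnit D) : Set K)
  · rw [← h.gauss_coset (J * modUnit D) hp hν']
    have hν'' : ν ∈ (dualIdeal (J * modUnit (D * 𝔣)) : Set K) := by
      rw [dualAt, hL] at hν'
      exact hν'
    have hG' : ∀ x y : K, y ∈ ((J * modUnit (D * 𝔣) : _) : Set K) → G (x + y) = G x :=
      fun x y hy => by
        simp only [hG, res_sub_periodic h hD hy, mul_add, trChar_add,
          trChar_mul_eq_one hν'' hy, mul_one]
    have : Finite (𝓞 K ⧸ 𝔣) := Ideal.finiteQuotientOfFreeOfNeBot 𝔣 h.ne_bot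
    let _ := Fintype.ofFinite (𝓞 K ⧸ 𝔣)
    have hz : ∀ b, cosetRep 𝔣 (J * modUnit D) b ∈ (J : Set K) := fun b =>
      mem_of_mem_mul_modUnit J hD (h.cosetRep_mem _ b)
    rw [tsum_fintype, Finset.mul_sum]
    calc ∑ r ∈ residues J N, G r = ∑ r ∈ residues J N, ∑ b : 𝓞 K ⧸ 𝔣,
          (((if r - cosetRep 𝔣 (J * modUnit D) b ∈ ((J * modUnit (D * 𝔣) : _) : Set K) then 1
            else 0 : ℕ) : ℕ) : ℂ) * G (cosetRep 𝔣 (J * modUnit D) b) := by
          refine Finset.sum_congr rfl fun r hr => ?_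
          by_cases hrL : r ∈ ((J * modUnit D : _) : Set K)
          · obtain ⟨b, hb, hbu⟩ := existsUnique_cosetRep h (J * modUnit D) hrL
            rw [hL] at hb hbu
            rw [Finset.sum_eq_single b (fun c _ hcb => by
              rw [if_neg fun hc => hcb (hbu c hc), Nat.cast_zero, zero_mul]) (by simp), if_pos hb,
              Nat.cast_one, one_mul]
            conv_lhs => rw [← add_sub_cancel (cosetRep 𝔣 (J * modUnit D) b) r]
            exact hG' _ _ hb
          · rw [Finset.sum_eq_zero fun b _ => ?_]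
            · simp only [hG, res, if_neg hrL, zero_mul]
            · rw [if_neg fun hc => hrL ?_, Nat.cast_zero, zero_mul]
              rw [← hL] at hc
              simpa using add_mem_lat (mem_of_mem_mul_modUnit _ h.ne_bot hc) (h.cosetRep_mem _ b)
      _ = _ := by
          rw [Finset.sum_comm]
          refine Finset.sum_congr rfl fun b _ => ?_
          rw [← Finset.sum_mul, ← Nat.cast_sum, sum_indicator_shift hE hN (hz b), hG]
  · have hz : res 𝔣 (conjChar g) S (dualAt 𝔣 (J * modUnit D)) ν = 0 := by rw [res, if_neg hν']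
    rw [hz, mul_zero, mul_zero]
    rw [dualAt, hL] at hν'
    obtain ⟨y, hy, hyn⟩ : ∃ y ∈ ((J * modUnit (D * 𝔣) : _) : Set K), trChar (ν * y) ≠ 1 := by
      by_contra hcon
      push Not at hcon
      refine hν' ((FractionalIdeal.mem_dual (A := ℤ) (K := ℚ)
        (J * modUnit (D * 𝔣)).ne_zero).2 fun y hy => ?_)
      obtain ⟨n, hn⟩ := trChar_eq_one (hcon y hy)
      exact ⟨n, by rw [Algebra.traceForm_apply, hn]; simp⟩
    have e := sum_residues_add J N G hper (mem_of_mem_mul_modUnit J hE hy)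
    have e2 : ∀ r, G (r + y) = trChar (ν * y) * G r := fun r => by
      simp only [hG, res_sub_periodic h hD hy, mul_add, trChar_add]
      ring
    simp only [e2] at e
    rw [← Finset.mul_sum] at e
    exact (mul_eq_zero.1 (show (trChar (ν * y) - 1) * ∑ r ∈ residues J N, G r = 0 by
      rw [sub_mul, one_mul, e, sub_self])).resolve_left (sub_ne_zero.2 hyn)

end Component

/-- **A function times `1 - N 𝔭 [· ∈ 𝔭 J]` has mean zero**, if its periods are prime to `𝔭`. -/
theorem hatSum_aux_zero {𝔭 𝔫 : Ideal (𝓞 K)} (hp : 𝔭 ≠ ⊥) (hn : 𝔫 ≠ ⊥) (hc : 𝔭 ⊔ 𝔫 = ⊤)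
    (hNp : (N : 𝓞 K) ∈ 𝔭) (hNn : (N : 𝓞 K) ∈ 𝔫) {Φ : K → ℂ}
    (hΦ : ∀ x ∈ (J : Set K), ∀ y ∈ ((J * modUnit 𝔫 : _) : Set K), Φ (x + y) = Φ x) :
    hatSum J N (fun x => Φ x * (1 - (Ideal.absNorm 𝔭 : ℂ) *
      if x ∈ ((J * modUnit 𝔭 : _) : Set K) then 1 else 0)) 0 = 0 := by
  obtain ⟨g, hg⟩ : ∃ g : K → ℂ, ∀ x, g x = Φ x *
      if x ∈ ((J * modUnit 𝔭 : _) : Set K) then 1 else 0 := ⟨_, fun _ => rfl⟩
  obtain ⟨z, hz, hz1⟩ := exists_translations J hp hc hn
  have hzJ : ∀ b, z b ∈ (J : Set K) := fun b =>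
    ((mul_le_mul' le_rfl FractionalIdeal.coeIdeal_le_one).trans (mul_one _).le) (hz b)
  have : Finite (𝓞 K ⧸ 𝔭) := Ideal.finiteQuotientOfFreeOfNeBot 𝔭 hp
  let _ := Fintype.ofFinite (𝓞 K ⧸ 𝔭)
  have hcard : (Ideal.absNorm 𝔭 : ℂ) = (Fintype.card (𝓞 K ⧸ 𝔭) : ℂ) := by
    rw [Ideal.absNorm_apply, Submodule.cardQuot_apply, Nat.card_eq_fintype_card]
  have hper : ∀ x ∈ (J : Set K), ∀ y ∈ (pMul J N : Set K), g (x + y) = g x := fun x hx y hy => by
    simp only [hg, indicator_periodic hp hNp hy, hΦ x hx y (pMul_subset J hn hNn hy)]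
  have hsum : (Ideal.absNorm 𝔭 : ℂ) * ∑ r ∈ residues J N, g r = ∑ r ∈ residues J N, Φ r := by
    rw [hcard, ← nsmul_eq_mul, ← Finset.card_univ, ← Finset.sum_const,
      ← Finset.sum_congr rfl fun b _ => sum_residues_add J N g hper (hzJ b), Finset.sum_comm]
    refine Finset.sum_congr rfl fun r hr => ?_
    have hrJ := residues_mem J N hr
    obtain ⟨b, hb, hbu⟩ := hz1 r hrJ
    rw [Finset.sum_eq_single b (fun c _ hcb => by rw [hg, if_neg fun hc' => hcb (hbu c hc'),
      mul_zero]) (by simp), hg, if_pos hb, mul_one]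
    exact hΦ r hrJ _ ((mem_mul_modUnit_iff J hn _).2 (hz b))
  rw [hatSum]
  calc _ = ∑ r ∈ residues J N, (Φ r - (Ideal.absNorm 𝔭 : ℂ) * g r) :=
        Finset.sum_congr rfl fun r _ => by
          rw [zero_mul, show trChar (0 : K) = 1 by simp [trChar], hg]
          ring
    _ = 0 := by rw [Finset.sum_sub_distrib, ← Finset.mul_sum, hsum, sub_self]

section Support

variable {L : (FractionalIdeal (𝓞 K)⁰ K)ˣ}

/-- A function supported on a sublattice has the same sums over the two sets of representatives. -/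
theorem tsum_rep_eq (hLJ : ∀ x : K, x ∈ (L : Set K) → x ∈ (J : Set K)) (F : K → ℂ)
    (hF : ∀ x : K, x ∉ (L : Set K) → F x = 0) :
    ∑' d : Rep J, F d.1 = ∑' d : Rep L, F d.1 := by
  obtain ⟨i, hi⟩ : ∃ i : Rep L → Rep J, ∀ a, (i a : K) = a :=
    ⟨fun a => ⟨a.1, hLJ _ a.2.1, a.2.2⟩, fun _ => rfl⟩
  have hinj : Function.Injective i := fun a b e => Subtype.ext (by rw [← hi a, ← hi b, e])
  rw [← hinj.tsum_eq (f := fun d : Rep J => F d.1) fun d hd => ?_]
  · exact tsum_congr fun a => by rw [hi]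
  · by_cases hd' : d.1 ∈ (L : Set K)
    · exact ⟨⟨d.1, hd', d.2.2⟩, Subtype.ext (hi _)⟩
    · exact absurd (hF _ hd') hd

theorem summable_rep (hLJ : ∀ x : K, x ∈ (L : Set K) → x ∈ (J : Set K)) (F : K → ℂ)
    (hF : ∀ x : K, x ∉ (L : Set K) → F x = 0) (hs : Summable fun d : Rep L => F d.1) :
    Summable fun d : Rep J => F d.1 := by
  obtain ⟨i, hi⟩ : ∃ i : Rep L → Rep J, ∀ a, (i a : K) = a :=
    ⟨fun a => ⟨a.1, hLJ _ a.2.1, a.2.2⟩, fun _ => rfl⟩
  have hinj : Function.Injective i := fun a b e => Subtype.ext (by rw [← hi a, ← hi b, e])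
  refine (hinj.summable_iff fun d hd => ?_).1 (hs.congr fun a => by simp only [Function.comp_apply, hi])
  by_contra hne
  exact hd ⟨⟨d.1, not_not.1 fun h => hne (hF _ h), d.2.2⟩, Subtype.ext (hi _)⟩

end Support

end FA.ClassIntegral

end
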