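import Fermat.Agent.ClassIntegral.Decompose

/-!
# The values at `1 - k` as constants of the transforms of residue functions

For every character `f` modulo `𝔪` of the parity of `k` and every `N ∈ 𝔪` the value at `1 - k` is
`feFactor N ^ (n (k-1))` times the sum over the classes `C` of the weighted normalised values, on
the dual of `N J_C`, of the transform of the residue function of `f`. At `k = 1` the transform is
first multiplied by `1 - N 𝔭 [· ∈ 𝔭]`, `𝔭` prime to `N`, which multiplies the value by `1 - f̄ (𝔭)`.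
-/

set_option autoImplicit false
set_option linter.unusedSectionVars false
set_option linter.style.haveILetI false

noncomputable section

open NumberField InfinitePlace IsDedekindDomain Module Filter Complex
open scoped Real nonZeroDivisors Classical Topology

namespace FA.ClassIntegral

open FA.HeckeFE FA.SiegelKlingen FA.HeckeCharFE FA.KlingenRay FA.KlingenIntegral
open FA.Hecke (IsRayChar IsNontrivial heckeL fPow classPart)
open FA.KlingenZero (perSum1 HasLim normVal1 auxRes coneExt sum_coneExt limVal hasLim_limVal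
  limVal_eq mem_mul_modUnit_iff mem_of_mem_mul_modUnit pMul_subset rp)
open FA.PadicEulerFactor (pMul mem_pMul)

variable {K : Type*} [Field K] [NumberField K] [IsTotallyReal K]
variable {𝔪 𝔣 𝔭 : Ideal (𝓞 K)} {f g : Ideal (𝓞 K) →* ℂ} {S : Finset (InfinitePlace K)}

/-- The weight of a lattice. -/
def idealWeight (J : (FractionalIdeal (𝓞 K)⁰ K)ˣ) (k N : ℕ) [NeZero N] : ℚ :=
  FractionalIdeal.absNorm (J : FractionalIdeal (𝓞 K)⁰ K) ^ k /
    ((Units.torsionOrder K : ℚ) * (((k - 1).factorial : ℚ) ^ finrank ℚ K *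
      FractionalIdeal.absNorm (pMul J N : FractionalIdeal (𝓞 K)⁰ K)))

theorem weight_mul (J : (FractionalIdeal (𝓞 K)⁰ K)ˣ) (k N : ℕ) [NeZero N] (l : ℂ) :
    ((idealWeight J k N : ℚ) : ℂ) * ((factor (pMul J N) k)⁻¹ * l) * piConst K k =
      (normR J : ℂ) ^ k * l / (Units.torsionOrder K : ℂ) := by
  have hπ : (-(2 * (π : ℂ) * I)) ^ (k * finrank ℚ K) ≠ 0 := pow_ne_zero _ (by simp [Real.pi_ne_zero])
  have hd : ((√|((discr K : ℤ) : ℝ)| : ℝ) : ℂ) ≠ 0 := ofReal_ne_zero.2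
    (Real.sqrt_pos.2 (abs_pos.2 (Int.cast_ne_zero.2 (discr_ne_zero K)))).ne'
  have hn : ((FractionalIdeal.absNorm (pMul J N : FractionalIdeal (𝓞 K)⁰ K) : ℚ) : ℂ) ≠ 0 := by
    have h1 := (normR_pos (pMul J N)).ne'
    rw [normR] at h1
    exact_mod_cast h1
  have hf : (((k - 1).factorial : ℕ) : ℂ) ^ finrank ℚ K ≠ 0 :=
    pow_ne_zero _ (Nat.cast_ne_zero.2 (Nat.factorial_ne_zero _))
  have hw : (Units.torsionOrder K : ℂ) ≠ 0 := Nat.cast_ne_zero.2 (NeZero.ne _)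
  rw [piConst, idealWeight, factor, normR, normR]
  simp only [Rat.cast_div, Rat.cast_mul, Rat.cast_pow, Rat.cast_natCast, ofReal_mul,
    ofReal_ratCast]
  field_simp

theorem charCone_eq_perSum {k : ℕ} (hpar : HasParity S k)
    (J : (FractionalIdeal (𝓞 K)⁰ K)ˣ) :
    charCone 𝔪 f S J (k : ℂ) = (normR J : ℂ) ^ k * perSum J k (res 𝔪 f S J) := by
  rw [charCone, perSum, ← tsum_mul_left]
  refine tsum_congr fun a => ?_
  have ha := Rep.ne_zero J a
  have hn0 : ((|Algebra.norm ℚ a.1| : ℚ) : ℂ) ≠ 0 :=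
    Rat.cast_ne_zero.2 (abs_ne_zero.2 (Algebra.norm_ne_zero_iff.2 ha))
  have hn1 : ((Algebra.norm ℚ a.1 : ℚ) : ℂ) ≠ 0 :=
    Rat.cast_ne_zero.2 (Algebra.norm_ne_zero_iff.2 ha)
  have hr : (ratio J a.1 : ℂ) = ((|Algebra.norm ℚ a.1| : ℚ) : ℂ) / (normR J : ℂ) := by
    rw [ratio, ofReal_div, ofReal_ratCast]
  have hsq : ((Algebra.norm ℚ a.1 : ℚ) : ℂ) * ((Algebra.norm ℚ a.1 : ℚ) : ℂ) =
      ((|Algebra.norm ℚ a.1| : ℚ) : ℂ) * ((|Algebra.norm ℚ a.1| : ℚ) : ℂ) := by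
    rw [← Rat.cast_mul, ← Rat.cast_mul, abs_mul_abs_self]
  rw [coefAt, sgnS_parity hpar ha, hr, cpow_neg, cpow_natCast, sgnN, Rat.cast_div, div_pow,
    div_pow, inv_div]
  field_simp
  rw [← pow_mul, ← pow_mul]
  linear_combination (res 𝔪 f S J a.1 * (normR J : ℂ) ^ k) * congrArg (· ^ k) hsq

theorem summable_res_pow (h : HasSigns 𝔪 f S) {k : ℕ} (hk : 2 ≤ k)
    (J : (FractionalIdeal (𝓞 K)⁰ K)ˣ) :
    Summable fun d : Rep J => res 𝔪 f S J d.1 * (((Algebra.norm ℚ d.1 : ℚ) : ℂ) ^ k)⁻¹ := by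
  refine Summable.of_norm_bounded (summable_constSum J hk) fun d => ?_
  rw [norm_mul, norm_inv, norm_pow, ← ofReal_ratCast, norm_real, Real.norm_eq_abs, Rat.cast_abs]
  exact mul_le_of_le_one_left (inv_nonneg.2 (pow_nonneg (abs_nonneg _) _)) (h.norm_res_le J _)

/-! ### The dual lattices -/

variable (J : (FractionalIdeal (𝓞 K)⁰ K)ˣ) (N : ℕ) [NeZero N]

/-- The lattice of a component. -/
abbrev compLat (𝔣 : Ideal (𝓞 K)) (t : Finset (HeightOneSpectrum (𝓞 K))) :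
    (FractionalIdeal (𝓞 K)⁰ K)ˣ := dualAt 𝔣 (J * modUnit (subIdeal t))

theorem compLat_eq (h : 𝔣 ≠ ⊥) (t : Finset (HeightOneSpectrum (𝓞 K))) :
    compLat J 𝔣 t = dualIdeal (J * modUnit (subIdeal t * 𝔣)) := by
  rw [compLat, dualAt, modUnit_mul (subIdeal_ne_bot t) h, mul_assoc]

variable {J N}

section Comp

variable (hf : IsRayChar 𝔪 f) (hg : HasSigns 𝔣 g S) (hle : 𝔪 ≤ 𝔣)
  (hgf : ∀ I : Ideal (𝓞 K), I ≠ ⊥ → I ⊔ 𝔪 = ⊤ → g I = f I) (hN : (N : 𝓞 K) ∈ 𝔪)
include hf hg hle hN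

theorem comp_ne_bot (t : Finset (HeightOneSpectrum (𝓞 K))) : subIdeal t * 𝔣 ≠ ⊥ :=
  mul_ne_zero (subIdeal_ne_bot t) hg.ne_bot

theorem comp_mem {t : Finset (HeightOneSpectrum (𝓞 K))} (ht : t ∈ (badSet hf g).powerset) :
    (N : 𝓞 K) ∈ subIdeal t * 𝔣 :=
  le_subIdeal_mul hf hg.ray hle ht hN

theorem comp_subset {t : Finset (HeightOneSpectrum (𝓞 K))} (ht : t ∈ (badSet hf g).powerset)
    {x : K} (hx : x ∈ (compLat J 𝔣 t : Set K)) : x ∈ (dualLat J N : Set K) := by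
  rw [compLat_eq J hg.ne_bot] at hx
  exact dual_subset (comp_ne_bot hf hg hle hN t) (comp_mem hf hg hle hN ht) hx

theorem normR_comp {t : Finset (HeightOneSpectrum (𝓞 K))} (ht : t ∈ (badSet hf g).powerset) :
    normR (compLat J 𝔣 t) = normR (dualLat J N) * (resCount (subIdeal t * 𝔣) J N : ℝ) := by
  rw [compLat_eq J hg.ne_bot,
    normR_dual (comp_ne_bot hf hg hle hN t) (comp_mem hf hg hle hN ht)]

include hgf

/-- The coefficient of a component. -/
theorem hatSum_decompose (hp : IsPrimitiveChar 𝔣 g) {ν : K} (hν : ν ∈ (dualLat J N : Set K)) :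
    hatSum J N (res 𝔪 f S J) ν = gaussW 𝔣 g S * ∑ t ∈ (badSet hf g).powerset,
      (-1) ^ t.card * g (subIdeal t) * (resCount (subIdeal t * 𝔣) J N : ℂ) *
        res 𝔣 (conjChar g) S (compLat J 𝔣 t) ν := by
  calc hatSum J N (res 𝔪 f S J) ν = ∑ t ∈ (badSet hf g).powerset,
        (-1) ^ t.card * g (subIdeal t) * hatSum J N (res 𝔣 g S (J * modUnit (subIdeal t))) ν := by
        rw [hatSum, Finset.sum_congr rfl fun r hr => congrArg (· * trChar (ν * r))
          (res_decompose hf hg hle hgf J (residues_mem J N hr))]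
        simp only [Finset.sum_mul, hatSum, Finset.mul_sum]
        rw [Finset.sum_comm]
        simp only [mul_assoc]
    _ = _ := by
        rw [Finset.mul_sum]
        refine Finset.sum_congr rfl fun t ht => ?_
        rw [hatSum_component hg hp (subIdeal_ne_bot t) (comp_mem hf hg hle hN ht) hν]
        ring

/-- **The sum of the transform on the dual lattice.** -/
theorem perSum_hat (hp : IsPrimitiveChar 𝔣 g) {k : ℕ} (hk : 2 ≤ k) :
    perSum (dualLat J N) k (hatSum J N (res 𝔪 f S J)) = gaussW 𝔣 g S *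
      ∑ t ∈ (badSet hf g).powerset, (-1) ^ t.card * g (subIdeal t) *
        (resCount (subIdeal t * 𝔣) J N : ℂ) *
          perSum (compLat J 𝔣 t) k (res 𝔣 (conjChar g) S (compLat J 𝔣 t)) := by
  obtain ⟨F, hF⟩ : ∃ F : Finset (HeightOneSpectrum (𝓞 K)) → K → ℂ, ∀ t x, F t x =
      res 𝔣 (conjChar g) S (compLat J 𝔣 t) x * (((Algebra.norm ℚ x : ℚ) : ℂ) ^ k)⁻¹ :=
    ⟨_, fun _ _ => rfl⟩
  have hF0 : ∀ t x, x ∉ (compLat J 𝔣 t : Set K) → F t x = 0 := fun t x hx => by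
    rw [hF, res, if_neg hx, zero_mul]
  have hsub : ∀ t ∈ (badSet hf g).powerset, Summable fun d : Rep (dualLat J N) => F t d.1 :=
    fun t ht => summable_rep (fun x => comp_subset hf hg hle hN ht) (F t) (hF0 t)
      ((summable_res_pow hg.conj hk (compLat J 𝔣 t)).congr fun d => (hF t d.1).symm)
  have e : ∀ t ∈ (badSet hf g).powerset,
      perSum (compLat J 𝔣 t) k (res 𝔣 (conjChar g) S (compLat J 𝔣 t)) =
        ∑' d : Rep (dualLat J N), F t d.1 := fun t ht => by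
    rw [tsum_rep_eq (fun x => comp_subset hf hg hle hN ht) (F t) (hF0 t), perSum]
    exact tsum_congr fun d => (hF t d.1).symm
  rw [Finset.sum_congr rfl fun t ht => by rw [e t ht, ← tsum_mul_left], Finset.mul_sum,
    Finset.sum_congr rfl fun t _ => (tsum_mul_left (a := gaussW 𝔣 g S)).symm,
    ← Summable.tsum_finsetSum fun t ht => (((hsub t ht).mul_left _).mul_left _), perSum]
  refine tsum_congr fun d => ?_
  rw [hatSum_decompose hf hg hle hgf hN hp d.2.1, Finset.mul_sum, Finset.sum_mul]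
  exact Finset.sum_congr rfl fun t _ => by rw [hF]; ring

end Comp

theorem bijective_comp (𝔣 𝔢 : Ideal (𝓞 K)) :
    Function.Bijective fun C : ClassGroup (𝓞 K) =>
      (ClassGroup.mk K (dualAt 𝔣 (repIdeal K C * modUnit 𝔢)))⁻¹ := by
  simp only [fun C : ClassGroup (𝓞 K) => mk_dualAt 𝔣 (repIdeal K C * modUnit 𝔢), map_mul,
    fun C : ClassGroup (𝓞 K) => inv_eq_iff_eq_inv.1 (mk_repIdeal C)]
  exact ((Equiv.inv _).trans ((Equiv.mulRight (ClassGroup.mk K (modUnit 𝔢))).trans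
    (Equiv.mulLeft (ClassGroup.mk K (dualAt 𝔣 1))⁻¹))).bijective

theorem bijective_comp_aux (𝔣 𝔢 : Ideal (𝓞 K)) (𝔭 : Ideal (𝓞 K)) :
    Function.Bijective fun C : ClassGroup (𝓞 K) =>
      (ClassGroup.mk K (dualAt 𝔣 (repIdeal K C * modUnit 𝔢) * modUnit 𝔭))⁻¹ := by
  simp only [map_mul, mul_inv]
  exact (Equiv.mulRight (ClassGroup.mk K (modUnit 𝔭))⁻¹).bijective.comp (bijective_comp 𝔣 𝔢)

/-- The weighted normalised value of the transform of a function on a class. -/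
def classTerm (C : ClassGroup (𝓞 K)) (N M k : ℕ) [NeZero N] [NeZero M] (Φ : K → ℂ) : ℂ :=
  ((idealWeight (dualLat (repIdeal K C) N) k (N * M) : ℚ) : ℂ) *
    normVal (dualLat (repIdeal K C) N) (N * M) k (hatSum (repIdeal K C) N Φ)

theorem scale_resCount {E : Ideal (𝓞 K)} (hE : E ≠ ⊥) (hN : (N : 𝓞 K) ∈ E) (k : ℕ) (hk : 1 ≤ k) :
    (N : ℂ) ^ (finrank ℚ K * (k - 1)) * ((normR (dualLat J N) : ℂ) ^ k * (resCount E J N : ℂ)) =
      ((normR (dualLat J N) : ℂ) * (resCount E J N : ℂ)) ^ k * (Ideal.absNorm E : ℂ) ^ (k - 1) := by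
  obtain ⟨j, rfl⟩ : ∃ j, k = j + 1 := ⟨k - 1, by omega⟩
  have e : ((Ideal.absNorm E : ℂ)) * (resCount E J N : ℂ) = (N : ℂ) ^ finrank ℚ K := by
    exact_mod_cast absNorm_mul_resCount' hE hN
  rw [Nat.add_sub_cancel, pow_mul, ← e]
  ring

/-- **The classes together**: the L-value at `k` with the Euler factors at `1 - k`. -/
theorem sum_classTerm (hf : IsRayChar 𝔪 f) (hg : HasSigns 𝔣 g S) (hle : 𝔪 ≤ 𝔣)
    (hgf : ∀ I : Ideal (𝓞 K), I ≠ ⊥ → I ⊔ 𝔪 = ⊤ → g I = f I) (hN : (N : 𝓞 K) ∈ 𝔪)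
    (hp : IsPrimitiveChar 𝔣 g) (M : ℕ) [NeZero M] {k : ℕ} (hk : 2 ≤ k) (hpar : HasParity S k) :
    (N : ℂ) ^ (finrank ℚ K * (k - 1)) *
        (∑ C : ClassGroup (𝓞 K), classTerm C N M k (res 𝔪 f S (repIdeal K C))) * piConst K k =
      gaussW 𝔣 g S * heckeL (conjChar g) (k : ℂ) * (Ideal.absNorm 𝔣 : ℂ) ^ (k - 1) *
        ∏ v ∈ hf.finite_zero.toFinset, (1 - fPow g (1 - (k : ℂ)) v) := by
  have hw : (Units.torsionOrder K : ℂ) ≠ 0 := Nat.cast_ne_zero.2 (NeZero.ne _)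
  have hs : 1 < (k : ℂ).re := by
    rw [natCast_re]
    exact_mod_cast (by omega : 1 < k)
  have hcl : ∀ t : Finset (HeightOneSpectrum (𝓞 K)),
      ∑ C : ClassGroup (𝓞 K), (normR (compLat (repIdeal K C) 𝔣 t) : ℂ) ^ k *
        perSum (compLat (repIdeal K C) 𝔣 t) k (res 𝔣 (conjChar g) S (compLat (repIdeal K C) 𝔣 t)) =
      (Units.torsionOrder K : ℂ) * heckeL (conjChar g) (k : ℂ) := fun t => by
    rw [FA.Hecke.heckeL_eq_sum hg.conj.ray hs, Finset.sum_congr rfl fun C _ =>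
      ((charCone_eq_perSum hpar _).symm.trans
        (hg.conj.charCone_eq (compLat (repIdeal K C) 𝔣 t) hs)), ← Finset.mul_sum]
    exact congrArg _ ((bijective_comp 𝔣 (subIdeal t)).sum_comp
      fun C => classPart (conjChar g) C (k : ℂ))
  have hterm : ∀ C : ClassGroup (𝓞 K), (N : ℂ) ^ (finrank ℚ K * (k - 1)) *
      classTerm C N M k (res 𝔪 f S (repIdeal K C)) * piConst K k =
      (Units.torsionOrder K : ℂ)⁻¹ * (gaussW 𝔣 g S * ∑ t ∈ (badSet hf g).powerset,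
        (-1) ^ t.card * g (subIdeal t) * (Ideal.absNorm (subIdeal t * 𝔣) : ℂ) ^ (k - 1) *
          ((normR (compLat (repIdeal K C) 𝔣 t) : ℂ) ^ k * perSum (compLat (repIdeal K C) 𝔣 t) k
            (res 𝔣 (conjChar g) S (compLat (repIdeal K C) 𝔣 t)))) := fun C => by
    rw [classTerm, normVal, mul_assoc _ _ (piConst K k), weight_mul,
      perSum_hat hf hg hle hgf hN hp hk, mul_div_assoc', inv_mul_eq_div]
    congr 1
    simp only [Finset.mul_sum]
    refine Finset.sum_congr rfl fun t ht => ?_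
    rw [normR_comp hf hg hle hN ht, ofReal_mul, ofReal_natCast]
    linear_combination (gaussW 𝔣 g S * ((-1) ^ t.card * g (subIdeal t)) *
      perSum (compLat (repIdeal K C) 𝔣 t) k
        (res 𝔣 (conjChar g) S (compLat (repIdeal K C) 𝔣 t))) *
      scale_resCount (comp_ne_bot hf hg hle hN t) (comp_mem hf hg hle hN ht)
        (J := repIdeal K C) k (by omega)
  rw [Finset.mul_sum, Finset.sum_mul, Finset.sum_congr rfl fun C _ => hterm C, ← Finset.mul_sum,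
    ← Finset.mul_sum, Finset.sum_comm, ← sum_factors (g := g) hf (by omega : 1 ≤ k)]
  simp only [← Finset.mul_sum, hcl, map_mul Ideal.absNorm]
  simp only [Finset.mul_sum]
  refine Finset.sum_congr rfl fun t _ => ?_
  push_cast
  rw [mul_pow]
  field_simp

theorem feFactor_eq (𝔣 : Ideal (𝓞 K)) (k : ℕ) :
    (feFactor K 𝔣 k : ℂ) = (Ideal.absNorm 𝔣 : ℂ) ^ (k - 1) * (feFactor K ⊤ k : ℂ) := by
  rw [feFactor, feFactor, Ideal.absNorm_top, mul_one]
  push_cast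
  rw [mul_pow]
  ring

theorem piConst_ne_zero (k : ℕ) : piConst K k ≠ 0 :=
  div_ne_zero (pow_ne_zero _ (by simp [Real.pi_ne_zero])) (ofReal_ne_zero.2
    (Real.sqrt_pos.2 (abs_pos.2 (Int.cast_ne_zero.2 (discr_ne_zero K)))).ne')

theorem gaussW_top : gaussW (⊤ : Ideal (𝓞 K)) 1 ∅ = 1 := by
  have h1 : HasSigns (⊤ : Ideal (𝓞 K)) (1 : Ideal (𝓞 K) →* ℂ) ∅ :=
    ⟨IsRayChar.one, by simp, fun x _ _ => by simp [sgnS]⟩
  obtain ⟨w, hw⟩ : ∃ w : K, w = (gam (⊤ : Ideal (𝓞 K)) (dualAt ⊤ 1))⁻¹ *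
      (unitElt (⊤ : Ideal (𝓞 K)) (dualAt ⊤ 1) : K) := ⟨_, rfl⟩
  have hwmem : w ∈ (dualAt (⊤ : Ideal (𝓞 K)) 1 : Set K) := by
    obtain ⟨hγ, -, -, -⟩ := intIdeal_spec (⊤ : Ideal (𝓞 K)) (dualAt ⊤ 1)
    have := (mem_mul_iff (𝔪 := (⊤ : Ideal (𝓞 K))) (I := dualAt ⊤ 1) (x := w) ⊤).2
      ⟨unitElt ⊤ (dualAt ⊤ 1), by
        rw [Ideal.mul_top]; exact (unitElt_spec h1.ne_bot (dualAt ⊤ 1)).1,
        by rw [hw, mul_inv_cancel_left₀ hγ]⟩
    rwa [FractionalIdeal.coeIdeal_top, mul_one] at this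
  have hterm : ∀ b : 𝓞 K ⧸ (⊤ : Ideal (𝓞 K)),
      resFn ⊤ (1 : Ideal (𝓞 K) →* ℂ) ∅ b.out * trChar (w * (b.out : K)) = 1 := fun b => by
    rw [trChar_dualAt h1.ne_bot hwmem Submodule.mem_top, mul_one,
      h1.resFn_congr (y := 1) Submodule.mem_top, h1.resFn_one]
  have : Subsingleton (𝓞 K ⧸ (⊤ : Ideal (𝓞 K))) :=
    Submodule.Quotient.subsingleton_iff.2 rfl
  rw [gaussW, ← hw, gaussSumAt, tsum_congr hterm, tsum_eq_single 0 fun b hb =>
    absurd (Subsingleton.elim b 0) hb]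
  simp [sgnS]

/-- **The value at `1 - k`, `k ≥ 2`**, of a character of the parity of `k`. -/
theorem value_eq_classTerm (h : HasSigns 𝔪 f S) {k : ℕ} (hk : 2 ≤ k) (hpar : HasParity S k)
    (hN : (N : 𝓞 K) ∈ 𝔪) (M : ℕ) [NeZero M] {Z : ℂ → ℂ} (hZ : IsLExt f Z) :
    Z (1 - (k : ℂ)) = (feFactor K ⊤ k : ℂ) * ((N : ℂ) ^ (finrank ℚ K * (k - 1)) *
      ∑ C : ClassGroup (𝓞 K), classTerm C N M k (res 𝔪 f S (repIdeal K C))) := by
  have h1 := one_sub_ne_one (k := k) (by omega)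
  refine mul_right_cancel₀ (piConst_ne_zero (K := K) k) ?_
  rw [mul_assoc (feFactor K ⊤ k : ℂ)]
  by_cases hnt : IsNontrivial f
  · obtain ⟨𝔣, g, hle, hgr, hp, hgn, hgf⟩ := exists_primitive h.ray
    obtain ⟨S', hg⟩ := exists_hasSigns hgr
    obtain rfl : S' = S := hasSigns_unique (signs_of_induced h.ray hg hle hgf) h
    have : NeZero (Ideal.absNorm 𝔣) := ⟨fun e => hg.ne_bot (Ideal.absNorm_eq_zero_iff.1 e)⟩
    rw [hZ.unique (isLExt_induced h.ray hg hp (hgn hnt) hgf) h1,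
      sum_classTerm h.ray hg hle hgf hN hp M hk hpar,
      primExt_one_sub hg hp (hgn hnt) hpar hk (Ideal.absNorm 𝔣), primValue,
      heckeL_value hg.conj hpar hk (Ideal.absNorm 𝔣), feFactor_eq 𝔣]
    ring
  · rcases hpar with ⟨hev, rfl⟩ | ⟨-, rfl⟩
    swap
    · obtain ⟨w⟩ := (inferInstance : Nonempty (InfinitePlace K))
      obtain ⟨y, hy0, hy1, hyn, hyp⟩ := exists_negative_at h.ne_bot (IsTotallyReal.isReal w)
      have hc : Ideal.span {y} ⊔ 𝔪 = ⊤ := by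
        rw [FA.Hecke.span_sup_congr hy1, Ideal.span_singleton_one, top_sup_eq]
      have e := h.sgn y hy0 hy1
      rw [FA.Hecke.eq_one_of_not_isNontrivial hnt (by simpa using hy0)
        ((h.ray.ne_zero_iff _ (by simpa using hy0)).2 hc), sgnS, Finset.prod_eq_single w
          (fun w' _ hw' => by
            rw [Real.sign_of_pos (hyp w' (IsTotallyReal.isReal w') hw'), ofReal_one]) (by simp),
        Real.sign_of_neg hyn, ofReal_neg, ofReal_one] at e
      norm_num at e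
    have hg : HasSigns (⊤ : Ideal (𝓞 K)) (1 : Ideal (𝓞 K) →* ℂ) ∅ :=
      ⟨IsRayChar.one, by simp, fun x _ _ => by simp [sgnS]⟩
    have hp : IsPrimitiveChar (⊤ : Ideal (𝓞 K)) (1 : Ideal (𝓞 K) →* ℂ) :=
      fun 𝔫 hn => absurd hn not_top_lt
    have hgf : ∀ I : Ideal (𝓞 K), I ≠ ⊥ → I ⊔ 𝔪 = ⊤ → (1 : Ideal (𝓞 K) →* ℂ) I = f I :=
      fun I hI hc => (FA.Hecke.eq_one_of_not_isNontrivial hnt hI
        ((h.ray.ne_zero_iff I hI).2 hc)).symm
    have hconj : conjChar (1 : Ideal (𝓞 K) →* ℂ) = 1 :=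
      MonoidHom.ext fun I => map_one (starRingEnd ℂ)
    rw [hZ.unique (isLExt_trivial h.ray hnt) h1,
      sum_classTerm h.ray hg le_top hgf hN hp M hk (Or.inl ⟨hev, rfl⟩), gaussW_top, one_mul,
      Ideal.absNorm_top, Nat.cast_one, one_pow, mul_one, hconj]
    obtain ⟨r, -, hr⟩ := dedekindZeta_mem (K := K) hev hk (classZ_mem_even hev hk)
    have hs : 1 < (k : ℂ).re := by
      rw [natCast_re]
      exact_mod_cast (by omega : 1 < k)
    have hext : extension K (1 - (k : ℂ)) * piConst K k =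
        (feFactor K ⊤ k : ℂ) * heckeL (1 : Ideal (𝓞 K) →* ℂ) k := by
      obtain ⟨t, rfl⟩ := hev.two_dvd
      rw [FA.Hecke.heckeL_one hs, hr, extension_eq (by omega) hr, feFactor, Ideal.absNorm_top,
        mul_one, piConst]
      obtain ⟨D, hD⟩ : ∃ D : ℕ, D = (discr K).natAbs := ⟨_, rfl⟩
      have hD0 : (D : ℂ) ≠ 0 := Nat.cast_ne_zero.2 (hD ▸ Int.natAbs_ne_zero.2 (discr_ne_zero K))
      have hd : (SiegelKlingen.rootDiscr K : ℂ) * (SiegelKlingen.rootDiscr K : ℂ) = (D : ℂ) := by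
        rw [← ofReal_mul, SiegelKlingen.rootDiscr, Real.mul_self_sqrt (abs_nonneg _), hD,
          ← ofReal_natCast, Nat.cast_natAbs, Int.cast_abs]
      have hroot : (SiegelKlingen.rootDiscr K : ℂ) ≠ 0 := left_ne_zero_of_mul (hd.symm ▸ hD0)
      rw [show (√|((discr K : ℤ) : ℝ)| : ℝ) = SiegelKlingen.rootDiscr K from rfl, ← hD]
      obtain ⟨j, hj⟩ : ∃ j, 2 * t = j + 1 := ⟨2 * t - 1, by omega⟩
      have hp4 : (-(2 * (π : ℂ) * I)) ^ (2 * t * finrank ℚ K) =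
          (-4) ^ (t * finrank ℚ K) * (π : ℂ) ^ (2 * t * finrank ℚ K) := by
        rw [mul_assoc 2 t, pow_mul, pow_mul (π : ℂ), ← mul_pow]
        congr 1
        linear_combination (4 * (π : ℂ) ^ 2) * I_sq
      have hsign : ((-1 : ℂ) ^ t / 2 ^ (2 * t)) ^ finrank ℚ K * (-4) ^ (t * finrank ℚ K) = 1 := by
        rw [pow_mul (-4 : ℂ), ← mul_pow, div_mul_eq_mul_div, ← mul_pow, pow_mul (2 : ℂ)]
        norm_num
      have hfac : (D : ℂ) ^ (2 * t) = (D : ℂ) ^ (2 * t - 1) * (D : ℂ) := by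
        rw [hj, Nat.add_sub_cancel, pow_succ]
      rw [hp4]
      push_cast
      rw [show (-1 : ℂ) ^ (2 * t) = 1 by rw [pow_mul, neg_one_sq, one_pow], mul_one, hfac, ← hd,
        mul_pow, mul_pow]
      field_simp
      rw [mul_div_assoc, mul_pow, mul_pow]
      linear_combination ((r : ℂ) * (((2 * t - 1).factorial : ℕ) : ℂ) ^ finrank ℚ K *
        (2 : ℂ) ^ finrank ℚ K) * hsign
    linear_combination (∏ v ∈ h.ray.finite_zero.toFinset,
      (1 - fPow (1 : Ideal (𝓞 K) →* ℂ) (1 - (k : ℂ)) v)) * hext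

end FA.ClassIntegral

end
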