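import Fermat.Agent.ClassIntegral.Values

/-!
# The values at `0` as constants of transforms of mean zero

At `k = 1` the transform of the residue function is multiplied by `1 - N 𝔭 [· ∈ 𝔭]` for an ideal
`𝔭` prime to `N`: it then has mean zero and, on each component, is the auxiliary weight of the
primitive character, whose constants over the classes give the value at `1` times `1 - ḡ (𝔭)`.
-/

set_option autoImplicit false
set_option linter.unusedSectionVars false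
set_option linter.style.haveILetI false

noncomputable section

open NumberField InfinitePlace IsDedekindDomain Module Filter Complex
open scoped Real nonZeroDivisors Classical Topology

namespace FA.ClassIntegral

open FA.HeckeFE FA.SiegelKlingen FA.HeckeCharFE FA.KlingenRay FA.KlingenIntegral
open FA.Hecke (IsRayChar IsNontrivial fPow)
open FA.KlingenZero (perSum1 HasLim normVal1 auxRes coneExt sum_coneExt limVal hasLim_limVal
  limVal_eq mem_mul_modUnit_iff mem_of_mem_mul_modUnit pMul_subset summable_res_term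
  invFac_mul_charFac one_sub_one)
open FA.PadicEulerFactor (pMul mem_pMul add_mem_lat)

variable {K : Type*} [Field K] [NumberField K] [IsTotallyReal K]
variable {𝔪 𝔣 𝔭 : Ideal (𝓞 K)} {f g : Ideal (𝓞 K) →* ℂ}
variable {J : (FractionalIdeal (𝓞 K)⁰ K)ˣ} {N : ℕ} [NeZero N]

theorem modUnit_span_natCast (L : (FractionalIdeal (𝓞 K)⁰ K)ˣ) :
    L * modUnit (Ideal.span {(N : 𝓞 K)}) = pMul L N := by
  refine Units.ext ?_
  rw [Units.val_mul, coe_modUnit (by simp [NeZero.ne N]), FractionalIdeal.coeIdeal_span_singleton,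
    pMul, Units.val_mul, Units.val_mk0, map_natCast, mul_comm]

variable (J N) in
/-- The transform times the auxiliary factor. -/
def auxHat (𝔭 : Ideal (𝓞 K)) (Φ : K → ℂ) (ν : K) : ℂ :=
  hatSum J N Φ ν * (1 - (Ideal.absNorm 𝔭 : ℂ) *
    if ν ∈ ((dualLat J N * modUnit 𝔭 : _) : Set K) then 1 else 0)

theorem isPer_auxHat {Φ : K → ℂ} (h : IsPer J N 1 Φ) (hp : 𝔭 ≠ ⊥) (M : ℕ) [NeZero M]
    (hM : ((N * M : ℕ) : 𝓞 K) ∈ 𝔭) :
    IsPer (dualLat J N) (N * M) 1 (auxHat J N 𝔭 Φ) where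
  periodic d hd y hy := by
    simp only [auxHat, (isPer_hatSum h M).periodic d hd y hy, indicator_periodic hp hM hy]
  unit m d hd := by
    have e : unitVal m * d ∈ ((dualLat J N * modUnit 𝔭 : _) : Set K) ↔
        d ∈ ((dualLat J N * modUnit 𝔭 : _) : Set K) :=
      ⟨fun h' => by
        have h'' := unitVal_mul_mem (dualLat J N * modUnit 𝔭) (-m) h'
        rwa [← mul_assoc, ← unitVal_add, neg_add_cancel, unitVal_zero, one_mul] at h'',
        unitVal_mul_mem (dualLat J N * modUnit 𝔭) m⟩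
    simp only [auxHat, e, (isPer_hatSum h M).unit m d hd, mul_assoc]

theorem hatSum_auxHat_zero {Φ : K → ℂ} (hp : 𝔭 ≠ ⊥) (hc : 𝔭 ⊔ Ideal.span {(N : 𝓞 K)} = ⊤)
    (M : ℕ) [NeZero M] (hM : ((N * M : ℕ) : 𝓞 K) ∈ 𝔭) (h : IsPer J N 1 Φ) :
    hatSum (dualLat J N) (N * M) (auxHat J N 𝔭 Φ) 0 = 0 := by
  refine hatSum_aux_zero hp (by simp [NeZero.ne N]) hc hM
    (by rw [Nat.cast_mul]; exact Ideal.mul_mem_right _ _ (Ideal.mem_span_singleton_self _))
    fun x hx y hy => (isPer_hatSum h 1).periodic x hx y ?_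
  rw [modUnit_span_natCast, mem_pMul] at hy
  rw [mem_pMul, mul_one]
  exact hy

section Comp

variable (hf : IsRayChar 𝔪 f) (hg : HasSigns 𝔣 g Finset.univ) (hle : 𝔪 ≤ 𝔣)
  (hgf : ∀ I : Ideal (𝓞 K), I ≠ ⊥ → I ⊔ 𝔪 = ⊤ → g I = f I) (hN : (N : 𝓞 K) ∈ 𝔪)
  (hp𝔭 : 𝔭 ≠ ⊥) (hc : 𝔭 ⊔ Ideal.span {(N : 𝓞 K)} = ⊤)
include hf hg hle hN hp𝔭 hc

theorem mem_aux_iff {t : Finset (HeightOneSpectrum (𝓞 K))} (ht : t ∈ (badSet hf g).powerset)
    {ν : K} (hν : ν ∈ (compLat J 𝔣 t : Set K)) :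
    ν ∈ ((dualLat J N * modUnit 𝔭 : _) : Set K) ↔
      ν ∈ ((compLat J 𝔣 t * modUnit 𝔭 : _) : Set K) := by
  rw [mem_mul_modUnit_iff _ hp𝔭, mem_mul_modUnit_iff _ hp𝔭]
  have hle' : (compLat J 𝔣 t : FractionalIdeal (𝓞 K)⁰ K) ≤
      (dualLat J N : FractionalIdeal (𝓞 K)⁰ K) := fun x hx => comp_subset hf hg hle hN ht hx
  refine ⟨fun h => ?_, fun h => mul_le_mul' hle' le_rfl h⟩
  obtain ⟨b, hb, a, ha, hab⟩ := Submodule.mem_sup.1 ((Ideal.eq_top_iff_one _).1 hc)
  obtain ⟨a', rfl⟩ := Ideal.mem_span_singleton.1 ha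
  have hsub : (pMul (dualLat J N) N : FractionalIdeal (𝓞 K)⁰ K) ≤
      (compLat J 𝔣 t : FractionalIdeal (𝓞 K)⁰ K) := fun y hy => by
    have hy' := FA.KlingenTwo.natCast_mul_mem_dual J N (mem_pMul.1 hy)
    rw [mul_div_cancel₀ _ (Nat.cast_ne_zero.2 (NeZero.ne N) : (N : K) ≠ 0)] at hy'
    rw [compLat_eq J hg.ne_bot]
    exact (FractionalIdeal.mem_dual (A := ℤ) (K := ℚ)
      (J * modUnit (subIdeal t * 𝔣)).ne_zero).2 fun x hx =>
        (FractionalIdeal.mem_dual (A := ℤ) (K := ℚ) J.ne_zero).1 hy' x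
          (mem_of_mem_mul_modUnit J (comp_ne_bot hf hg hle hN t) hx)
  have h1 : (N : K) * ν ∈
      (compLat J 𝔣 t : FractionalIdeal (𝓞 K)⁰ K) * (𝔭 : FractionalIdeal (𝓞 K)⁰ K) := by
    refine mul_le_mul' hsub le_rfl ?_
    rw [pMul, Units.val_mul, Units.val_mk0, mul_assoc]
    exact FractionalIdeal.mem_singleton_mul.2 ⟨ν, h, rfl⟩
  have h2 : ν * (b : K) ∈
      (compLat J 𝔣 t : FractionalIdeal (𝓞 K)⁰ K) * (𝔭 : FractionalIdeal (𝓞 K)⁰ K) :=
    FractionalIdeal.mul_mem_mul hν ((FractionalIdeal.mem_coeIdeal _).2 ⟨b, hb, rfl⟩)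
  have e : ν = ν * (b : K) + a' • ((N : K) * ν) := by
    have hab' := congrArg (algebraMap (𝓞 K) K) hab
    rw [map_one, map_add, map_mul, map_natCast] at hab'
    rw [Algebra.smul_def]
    linear_combination (-ν) * hab'
  rw [e]
  exact Submodule.add_mem _ h2 (Submodule.smul_mem _ a' h1)

include hgf

theorem auxHat_decompose (hp : IsPrimitiveChar 𝔣 g) {ν : K} (hν : ν ∈ (dualLat J N : Set K)) :
    auxHat J N 𝔭 (res 𝔪 f Finset.univ J) ν = gaussW 𝔣 g Finset.univ *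
      ∑ t ∈ (badSet hf g).powerset, (-1) ^ t.card * g (subIdeal t) *
        (resCount (subIdeal t * 𝔣) J N : ℂ) * auxRes (compLat J 𝔣 t) 𝔣 (conjChar g) 𝔭 ν := by
  rw [auxHat, hatSum_decompose hf hg hle hgf hN hp hν, mul_assoc (gaussW _ _ _), Finset.sum_mul]
  congr 1
  refine Finset.sum_congr rfl fun t ht => ?_
  rw [auxRes]
  by_cases hνt : ν ∈ (compLat J 𝔣 t : Set K)
  · rw [mem_aux_iff hf hg hle hN hp𝔭 hc ht hνt]
    ring
  · rw [show res 𝔣 (conjChar g) Finset.univ (compLat J 𝔣 t) ν = 0 by rw [res, if_neg hνt]]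
    ring

/-- The limit of the transform. -/
theorem hasLim_auxHat (hp : IsPrimitiveChar 𝔣 g) :
    HasLim (dualLat J N) (auxHat J N 𝔭 (res 𝔪 f Finset.univ J)) (gaussW 𝔣 g Finset.univ *
      ∑ t ∈ (badSet hf g).powerset, (-1) ^ t.card * g (subIdeal t) *
        (resCount (subIdeal t * 𝔣) J N : ℂ) * limVal 𝔣 (conjChar g) 𝔭 (compLat J 𝔣 t)) := by
  obtain ⟨F, hF⟩ : ∃ F : Finset (HeightOneSpectrum (𝓞 K)) → ℝ → K → ℂ, ∀ t x d, F t x d =
      auxRes (compLat J 𝔣 t) 𝔣 (conjChar g) 𝔭 d * ((Algebra.norm ℚ d : ℚ) : ℂ)⁻¹ *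
        FA.KlingenZero.rp (((|Algebra.norm ℚ d| : ℚ) : ℝ) ^ 2) x := ⟨_, fun _ _ _ => rfl⟩
  have hF0 : ∀ t x d, d ∉ (compLat J 𝔣 t : Set K) → F t x d = 0 := fun t x d hd => by
    rw [hF, auxRes, res, if_neg hd, zero_mul, zero_mul, zero_mul]
  have hsumm : ∀ t, ∀ x : ℝ, 0 < x → Summable fun d : Rep (compLat J 𝔣 t) => F t x d.1 :=
    fun t x hx => by
      refine Summable.of_norm_bounded
        ((summable_res_term hg.conj (compLat J 𝔣 t) hx).norm.mul_left
          (1 + (Ideal.absNorm 𝔭 : ℝ))) fun d => ?_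
      rw [hF, auxRes]
      set a := res 𝔣 (conjChar g) Finset.univ (compLat J 𝔣 t) d.1
      rw [show ∀ b c e : ℂ, a * b * c * e = b * (a * c * e) from fun b c e => by ring, norm_mul]
      refine mul_le_mul_of_nonneg_right ((norm_sub_le _ _).trans ?_) (norm_nonneg _)
      rw [norm_one]
      gcongr
      rw [norm_mul, Complex.norm_natCast]
      refine mul_le_of_le_one_right (Nat.cast_nonneg _) ?_
      split_ifs <;> simp
  refine Tendsto.congr' ?_ ((tendsto_finsetSum _ fun t ht =>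
    ((hasLim_limVal hg.conj hp𝔭 hp.conj (compLat J 𝔣 t)).const_mul
      ((-1) ^ t.card * g (subIdeal t) * (resCount (subIdeal t * 𝔣) J N : ℂ)))).const_mul
    (gaussW 𝔣 g Finset.univ))
  filter_upwards [self_mem_nhdsWithin] with x (hx : 0 < x)
  have e : ∀ t ∈ (badSet hf g).powerset,
      perSum1 (compLat J 𝔣 t) (auxRes (compLat J 𝔣 t) 𝔣 (conjChar g) 𝔭) x =
        ∑' d : Rep (dualLat J N), F t x d.1 := fun t ht => by
    rw [tsum_rep_eq (fun z => comp_subset hf hg hle hN ht) (F t x) (hF0 t x), perSum1]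
    exact tsum_congr fun d => (hF t x d.1).symm
  have hsub : ∀ t ∈ (badSet hf g).powerset, Summable fun d : Rep (dualLat J N) => F t x d.1 :=
    fun t ht => summable_rep (fun z => comp_subset hf hg hle hN ht) (F t x) (hF0 t x)
      (hsumm t x hx)
  rw [Finset.sum_congr rfl fun t ht => by rw [e t ht, ← tsum_mul_left], Finset.mul_sum,
    Finset.sum_congr rfl fun t _ => (tsum_mul_left (a := gaussW 𝔣 g Finset.univ)).symm,
    ← Summable.tsum_finsetSum fun t ht => (((hsub t ht).mul_left _).mul_left _), perSum1]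
  refine tsum_congr fun d => ?_
  rw [auxHat_decompose hf hg hle hgf hN hp𝔭 hc hp d.2.1, Finset.mul_sum, Finset.sum_mul,
    Finset.sum_mul]
  exact Finset.sum_congr rfl fun t _ => by rw [hF]; ring

end Comp

/-- The weighted normalised limit on a class. -/
def classTerm1 (C : ClassGroup (𝓞 K)) (N M : ℕ) [NeZero N] [NeZero M] (l : ℂ) : ℂ :=
  ((idealWeight (dualLat (repIdeal K C) N) 1 (N * M) : ℚ) : ℂ) *
    normVal1 (dualLat (repIdeal K C) N) (N * M) l

/-- **The value at `0`** of a totally odd character, times `1 - f̄ (𝔭)`. -/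
theorem value_eq_classTerm1 (h : HasSigns 𝔪 f Finset.univ) (hN : (N : 𝓞 K) ∈ 𝔪) (M : ℕ)
    [NeZero M] (hp𝔭 : 𝔭 ≠ ⊥) (hc : 𝔭 ⊔ Ideal.span {(N : 𝓞 K)} = ⊤) {Z : ℂ → ℂ}
    (hZ : IsLExt f Z) :
    ∃ l : ClassGroup (𝓞 K) → ℂ,
      (∀ C, HasLim (dualLat (repIdeal K C) N)
        (auxHat (repIdeal K C) N 𝔭 (res 𝔪 f Finset.univ (repIdeal K C))) (l C)) ∧
      Z 0 * (1 - starRingEnd ℂ (f 𝔭)) =
        (feFactor K ⊤ 1 : ℂ) * ∑ C : ClassGroup (𝓞 K), classTerm1 C N M (l C) := by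
  have hnt : IsNontrivial f := by
    obtain ⟨w⟩ := (inferInstance : Nonempty (InfinitePlace K))
    obtain ⟨y, hy0, hy1, hyn, hyp⟩ := exists_negative_at h.ne_bot (IsTotallyReal.isReal w)
    have e := h.sgn y hy0 hy1
    rw [sgnS, Finset.prod_eq_single w (fun w' _ hw' => by
        rw [Real.sign_of_pos (hyp w' (IsTotallyReal.isReal w') hw'), ofReal_one]) (by simp),
      Real.sign_of_neg hyn, ofReal_neg, ofReal_one] at e
    exact ⟨Ideal.span {y}, by simpa using hy0, by rw [e]; norm_num, by rw [e]; norm_num⟩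
  obtain ⟨𝔣, g, hle, hgr, hp, hgn, hgf⟩ := exists_primitive h.ray
  obtain ⟨S', hg⟩ := exists_hasSigns hgr
  obtain rfl : S' = Finset.univ := hasSigns_unique (signs_of_induced h.ray hg hle hgf) h
  have hp𝔪 : 𝔭 ⊔ 𝔪 = ⊤ :=
    top_le_iff.1 (hc.ge.trans (sup_le_sup_left ((Ideal.span_singleton_le_iff_mem _).2 hN) _))
  refine ⟨_, fun C => hasLim_auxHat h.ray hg hle hgf hN hp𝔭 hc hp, ?_⟩
  have h1 : (0 : ℂ) ≠ 1 := zero_ne_one
  have hw : (Units.torsionOrder K : ℂ) ≠ 0 := Nat.cast_ne_zero.2 (NeZero.ne _)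
  refine mul_right_cancel₀ (piConst_ne_zero (K := K) 1) ?_
  have hF : charFac K 𝔣 Finset.univ 1 ≠ 0 := hg.charFac_ne_zero (by simp)
  have hinv : invFac K 𝔣 Finset.univ 1 = (charFac K 𝔣 Finset.univ 1)⁻¹ := by
    rw [invFac, charFac, IsTotallyReal.nrComplexPlaces_eq_zero, pow_zero, mul_one, cpow_neg,
      mul_inv, mul_inv, inv_pow, inv_pow]
  have hg0 : primExt hg hp 0 * piConst K 1 = (feFactor K 𝔣 1 : ℂ) * gaussW 𝔣 g Finset.univ *
      primExt hg.conj hp.conj 1 := by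
    rw [← invFac_mul_charFac hg, primExt, primExt, hinv]
    rw [show hg.completedL hp 0 = rootC 𝔣 g Finset.univ * hg.conj.completedL hp.conj 1 by
      rw [← hg.completedL_one_sub hp (hgn hnt), sub_self]]
    field_simp
  have hterm : ∀ C : ClassGroup (𝓞 K), classTerm1 C N M (gaussW 𝔣 g Finset.univ *
      ∑ t ∈ (badSet h.ray g).powerset, (-1) ^ t.card * g (subIdeal t) *
        (resCount (subIdeal t * 𝔣) (repIdeal K C) N : ℂ) *
          limVal 𝔣 (conjChar g) 𝔭 (compLat (repIdeal K C) 𝔣 t)) * piConst K 1 =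
      (Units.torsionOrder K : ℂ)⁻¹ * (gaussW 𝔣 g Finset.univ * ∑ t ∈ (badSet h.ray g).powerset,
        (-1) ^ t.card * g (subIdeal t) *
          (coneExt hg.conj hp.conj (compLat (repIdeal K C) 𝔣 t) 1 - conjChar g 𝔭 *
            coneExt hg.conj hp.conj (compLat (repIdeal K C) 𝔣 t * modUnit 𝔭) 1)) := fun C => by
    rw [classTerm1, normVal1, weight_mul, pow_one, inv_mul_eq_div]
    congr 1
    simp only [Finset.mul_sum]
    refine Finset.sum_congr rfl fun t ht => ?_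
    have hn := (normR_pos (dualLat (repIdeal K C) N)).ne'
    have hr := (normR_pos (compLat (repIdeal K C) 𝔣 t)).ne'
    rw [limVal_eq hg.conj hp𝔭 hp.conj]
    rw [normR_comp h.ray hg hle hN ht, ofReal_mul, ofReal_natCast]
    rw [normR_comp h.ray hg hle hN ht] at hr
    have hn' : (normR (dualLat (repIdeal K C) N) : ℂ) ≠ 0 := ofReal_ne_zero.2 hn
    have hr' : (resCount (subIdeal t * 𝔣) (repIdeal K C) N : ℂ) ≠ 0 :=
      Nat.cast_ne_zero.2 fun e => hr (by rw [e]; simp)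
    field_simp
  have hsum : ∀ t : Finset (HeightOneSpectrum (𝓞 K)), ∑ C : ClassGroup (𝓞 K),
      (coneExt hg.conj hp.conj (compLat (repIdeal K C) 𝔣 t) 1 - conjChar g 𝔭 *
        coneExt hg.conj hp.conj (compLat (repIdeal K C) 𝔣 t * modUnit 𝔭) 1) =
      (Units.torsionOrder K : ℂ) * primExt hg.conj hp.conj 1 * (1 - conjChar g 𝔭) := fun t => by
    rw [Finset.sum_sub_distrib, ← Finset.mul_sum,
      sum_coneExt hg.conj hp.conj (hgn hnt).conj _ (bijective_comp 𝔣 (subIdeal t)),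
      sum_coneExt hg.conj hp.conj (hgn hnt).conj _ (bijective_comp_aux 𝔣 (subIdeal t) 𝔭)]
    ring
  have hfac : ∑ t ∈ (badSet h.ray g).powerset, (-1) ^ t.card * g (subIdeal t) =
      ∏ v ∈ h.ray.finite_zero.toFinset, (1 - fPow g 0 v) := by
    have e := sum_factors (g := g) h.ray (k := 1) le_rfl
    rw [one_sub_one] at e
    simpa using e
  rw [hZ.unique (isLExt_induced h.ray hg hp (hgn hnt) hgf) h1, mul_assoc (feFactor K ⊤ 1 : ℂ),
    Finset.sum_mul, Finset.sum_congr rfl fun C _ => hterm C, ← Finset.mul_sum, ← Finset.mul_sum,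
    Finset.sum_comm]
  simp only [← Finset.mul_sum, hsum]
  rw [← Finset.sum_mul, hfac, show starRingEnd ℂ (f 𝔭) = conjChar g 𝔭 from
    congrArg (starRingEnd ℂ) (hgf 𝔭 hp𝔭 hp𝔪).symm, feFactor_eq 𝔣, Nat.sub_self, pow_zero,
    one_mul] at *
  field_simp
  linear_combination ((∏ v ∈ h.ray.finite_zero.toFinset, (1 - fPow g 0 v)) *
    (1 - conjChar g 𝔭)) * hg0

end FA.ClassIntegral

end
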